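import Mathlib
import Fermat.Agent.S18.H138.ChartsConst
import Fermat.Agent.S28.H865Keystone
import Fermat.Agent.S28.H867.Core
import Fermat.Agent.S28.H807.Analytic

/-!
# S37 / R-b (helper879): `ℚ(X₀(N))` is finite over `ℚ(j)`, in the language of helper138's charts

* `finiteDimensional_subfield_of_extendScalars` : transfer of finite-dimensionality from the
  `IntermediateField` language (`K₀ ≤ F₁` inside `E`) to a `Subfield K` of the type `↥F₁`.
* `finiteDimensional_baseField_jFull` :
  `FiniteDimensional (H138.baseField ℤ_(ℓ) (jFull N)) (modularFunctionFieldFull N)`.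
-/

set_option autoImplicit false
set_option linter.style.haveILetI false

noncomputable section

namespace Fermat.Agent.S37.H879

open ModularCurve ModularCurve.IgusaScheme Fermat.Agent.S18 Fermat.Agent.S28

section Transfer

variable {k E : Type*} [Field k] [Field E] [Algebra k E]

/-- Transfer of finite-dimensionality to a subfield of the type `↥F₁`. -/
theorem finiteDimensional_subfield_of_extendScalars (K₀ F₁ : IntermediateField k E)
    (h : K₀ ≤ F₁) [hfd : FiniteDimensional K₀ (IntermediateField.extendScalars h)]
    (K : Subfield F₁) (hK : ∀ f : F₁, f ∈ K ↔ (f : E) ∈ K₀) :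
    FiniteDimensional K F₁ := by
  let e₁ : K₀ ≃+* K :=
    { toFun := fun a => ⟨⟨a.1, h a.2⟩, (hK _).2 a.2⟩
      invFun := fun a => ⟨a.1.1, (hK _).1 a.2⟩
      left_inv := fun _ => rfl
      right_inv := fun _ => rfl
      map_mul' := fun _ _ => rfl
      map_add' := fun _ _ => rfl }
  let e₂ : IntermediateField.extendScalars h ≃+* F₁ :=
    { toFun := fun a => ⟨a.1, a.2⟩
      invFun := fun a => ⟨a.1, a.2⟩
      left_inv := fun _ => rfl
      right_inv := fun _ => rfl
      map_mul' := fun _ _ => rfl
      map_add' := fun _ _ => rfl }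
  haveI := hfd
  exact Module.Finite.of_equiv_equiv (A₁ := K₀) (B₁ := IntermediateField.extendScalars h)
    e₁ e₂ (RingHom.ext fun _ => rfl)

end Transfer

variable (N : ℕ) [NeZero N] (ℓ : ℕ) [Fact ℓ.Prime]

/-- membership in `ℚ(j) ⊆ F`, in terms of `q`-expansions -/
theorem mem_baseField_jFull_iff (f : ↥(modularFunctionFieldFull N)) :
    f ∈ H138.baseField ↥(GaloisRep.ratLocalizedAt ℓ) (jFull N) ↔
      (f : LaurentSeries ℚ) ∈ IntermediateField.adjoin ℚ {jqModC ℚ} := by
  constructor
  · intro hf
    have hle : H138.baseField ↥(GaloisRep.ratLocalizedAt ℓ) (jFull N) ≤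
        (IntermediateField.adjoin ℚ {jqModC ℚ}).toSubfield.comap
          (modularFunctionFieldFull N).toSubfield.subtype := by
      refine Subfield.closure_le.2 ?_
      rintro y (⟨r, rfl⟩ | hy)
      · show (algebraMap ↥(GaloisRep.ratLocalizedAt ℓ) ↥(modularFunctionFieldFull N) r :
          LaurentSeries ℚ) ∈ IntermediateField.adjoin ℚ {jqModC ℚ}
        have h1 := RingHom.congr_fun (H865.coe_comp_algebraMap_eq N ℓ) r
        simp only [RingHom.comp_apply] at h1
        have h2 : ((algebraMap ↥(GaloisRep.ratLocalizedAt ℓ) ↥(modularFunctionFieldFull N) r :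
            ↥(modularFunctionFieldFull N)) : LaurentSeries ℚ) =
            algebraMap ℚ (LaurentSeries ℚ) ((GaloisRep.ratLocalizedAt ℓ).subtype r) := h1
        rw [h2]
        exact (IntermediateField.adjoin ℚ {jqModC ℚ}).algebraMap_mem _
      · rw [Set.mem_singleton_iff] at hy
        rw [hy]
        show (jFull N : LaurentSeries ℚ) ∈ IntermediateField.adjoin ℚ {jqModC ℚ}
        exact IntermediateField.subset_adjoin ℚ _ (by rw [jqModC_rat]; rfl)
    exact hle hf
  · intro hf
    let K' : IntermediateField ℚ (LaurentSeries ℚ) :=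
      Subfield.toIntermediateField
        ((H138.baseField ↥(GaloisRep.ratLocalizedAt ℓ) (jFull N)).map
          (modularFunctionFieldFull N).toSubfield.subtype)
        (fun r => by
          have hmem : ((r : ℚ) : ↥(modularFunctionFieldFull N)) ∈
              H138.baseField ↥(GaloisRep.ratLocalizedAt ℓ) (jFull N) :=
            SubfieldClass.ratCast_mem _ r
          refine ⟨((r : ℚ) : ↥(modularFunctionFieldFull N)), hmem, ?_⟩
          show (((r : ℚ) : ↥(modularFunctionFieldFull N)) : LaurentSeries ℚ) = _
          rw [eq_ratCast (algebraMap ℚ (LaurentSeries ℚ)) r]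
          rfl)
    have hle : IntermediateField.adjoin ℚ {jqModC ℚ} ≤ K' := by
      rw [IntermediateField.adjoin_le_iff]
      intro y hy
      rw [Set.mem_singleton_iff] at hy
      rw [hy]
      exact ⟨jFull N, Subfield.subset_closure (Or.inr rfl), by rw [jqModC_rat]; rfl⟩
    obtain ⟨g, hg, hgf⟩ := hle hf
    have : g = f := Subtype.ext hgf
    rwa [← this]

/-- `ℚ(X₀(N))` is finite over `ℚ(j)` (chart language). -/
theorem finiteDimensional_baseField_jFull :
    FiniteDimensional (H138.baseField ↥(GaloisRep.ratLocalizedAt ℓ) (jFull N))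
      ↥(modularFunctionFieldFull N) := by
  have H : H626.HasModPolys ℚ N :=
    H867.hasModPolys ℚ N (fun p hp _ _ => H807.nonempty_modPolyData p hp)
      (fun p hp _ => Nat.cast_ne_zero.mpr hp.ne_zero)
  haveI := H626.finiteDimensional_extendScalars (k := ℚ) N H
  exact finiteDimensional_subfield_of_extendScalars
    (IntermediateField.adjoin ℚ {jqModC ℚ}) (modularFunctionFieldFullC ℚ N)
    (H626.adjoin_j_le_full (k := ℚ) N) _ (mem_baseField_jFull_iff N ℓ)

/-- the same for the chart at infinity -/
theorem finiteDimensional_baseField_jFull_inv :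
    FiniteDimensional (H138.baseField ↥(GaloisRep.ratLocalizedAt ℓ) (jFull N)⁻¹)
      ↥(modularFunctionFieldFull N) := by
  rw [H138.baseField_inv]
  exact finiteDimensional_baseField_jFull N ℓ

end Fermat.Agent.S37.H879
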