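import Fermat.Agent.S37.H879.IntQ
import Fermat.Agent.S28.H865Keystone

/-!
# S37 / R-b (helper879): the charts of the `ℤ_(ℓ)`-model have `ℓ`-integral `q`-expansions

`B₀ = IgusaScheme.chartAlg N ℓ S` (`S ⊆ {j, j⁻¹}`) is the integral closure of `ℤ_(ℓ)[S]` in
`F = ℚ(X₀(N)) ⊆ ℚ((q))`.  S28 shows `B₀ ⊆ V` (Gauss valuation ring of fractions).  Here:

* `exists_toQ_eq_of_mem_chartAlg` : every element of `B₀` has its `q`-expansion in `ℤ_(ℓ)((q))`;
* `chartQ hS : B₀ →+* ℤ_(ℓ)((q))` the `q`-expansion map, `toQ ∘ chartQ = coe`,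
  `toRes ∘ chartQ = H865.chartRed`.
-/

set_option autoImplicit false

noncomputable section

namespace Fermat.Agent.S37.H879

open HahnSeries ModularCurve ModularCurve.IgusaScheme Fermat.Agent.S28.H865

variable (ℓ : ℕ) [Fact ℓ.Prime]

/-- `ℤ_(ℓ)` is completely integrally closed in `ℚ`. -/
theorem isCIC_ratLocalizedAt : IsCIC (GaloisRep.ratLocalizedAt ℓ).subtype := by
  rintro x ⟨d, hd, h⟩
  have hℓ : ℓ.Prime := Fact.out
  by_cases hx : x = 0
  · exact ⟨0, by rw [map_zero, hx]⟩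
  have hd0 : (d : ℚ) ≠ 0 := fun h0 => hd (Subtype.ext h0)
  -- `0 ≤ v(d) + i v(x)` for all `i`
  have hval : ∀ i : ℕ, 0 ≤ padicValRat ℓ (d : ℚ) + i * padicValRat ℓ x := by
    intro i
    obtain ⟨r, hr⟩ := h i
    have h1 := padicValRat_nonneg_of_mem ℓ r
    have h2 : (r : ℚ) = (d : ℚ) * x ^ i := hr
    rw [h2, padicValRat.mul hd0 (pow_ne_zero i hx), padicValRat.pow x] at h1
    exact h1
  have hvx : 0 ≤ padicValRat ℓ x := by
    by_contra hneg
    rw [not_le] at hneg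
    have h1 := hval (padicValRat ℓ (d : ℚ)).toNat.succ
    have h2 : (0 : ℤ) ≤ padicValRat ℓ (d : ℚ) := padicValRat_nonneg_of_mem ℓ d
    have h3 : ((padicValRat ℓ (d : ℚ)).toNat.succ : ℤ) = padicValRat ℓ (d : ℚ) + 1 := by
      rw [Nat.succ_eq_add_one, Nat.cast_add, Int.toNat_of_nonneg h2, Nat.cast_one]
    rw [h3] at h1
    nlinarith
  -- so the denominator of `x` is prime to `ℓ`
  have hden : x.den.Coprime ℓ := by
    rw [Nat.coprime_comm, Nat.Prime.coprime_iff_not_dvd hℓ]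
    intro hdvd
    rw [padicValRat_def] at hvx
    have hnum : ¬ (ℓ : ℤ) ∣ x.num := by
      intro hn
      have hcop := x.reduced
      have h1 : ℓ ∣ x.num.natAbs := Int.natCast_dvd.mp hn
      have h2 : ℓ ∣ Nat.gcd x.num.natAbs x.den := Nat.dvd_gcd h1 hdvd
      rw [Nat.Coprime] at hcop
      rw [hcop] at h2
      exact hℓ.one_lt.ne' (Nat.dvd_one.mp h2)
    have h4 : padicValInt ℓ x.num = 0 := padicValInt.eq_zero_of_not_dvd hnum
    have h5 : 0 < padicValNat ℓ x.den :=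
      Nat.pos_of_ne_zero fun h0 => by
        rcases padicValNat.eq_zero_iff.mp h0 with h | h | h
        · exact hℓ.one_lt.ne' h
        · exact x.den_ne_zero h
        · exact h hdvd
    rw [h4] at hvx
    omega
  exact ⟨⟨x, hden⟩, rfl⟩

/-- `j` has an inverse in `ℤ_(ℓ)((q))`. -/
theorem exists_jqModC_inv (R : Type*) [CommRing R] [IsDomain R] :
    ∃ u : LaurentSeries R, u * jqModC R = 1 := by
  have hne : jqModC R ≠ 0 := jqModC_ne_zero_of_nontrivial R
  have hord : (jqModC R).order = -1 := by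
    apply le_antisymm
    · exact order_le_of_coeff_ne_zero (by rw [coeff_jqModC_neg_one]; exact one_ne_zero)
    · by_contra hlt
      rw [not_le] at hlt
      have := coeff_order_eq_zero.not.mpr hne
      exact this (coeff_jqModC_of_lt R hlt)
  have hunit : IsUnit (jqModC R) := by
    rw [HahnSeries.isUnit_iff, leadingCoeff_eq, hord, coeff_jqModC_neg_one]
    exact isUnit_one
  obtain ⟨u, hu⟩ := hunit.exists_left_inv
  exact ⟨u, hu⟩

variable {ℓ} {N : ℕ} [NeZero N]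

/-- elements of `ℤ_(ℓ)[S]` have integral `q`-expansions -/
theorem exists_toQ_eq_of_mem_adjoin {S : Set ↥(modularFunctionFieldFull N)}
    (hS : S ⊆ {jFull N, (jFull N)⁻¹}) {x : ↥(modularFunctionFieldFull N)}
    (hx : x ∈ Algebra.adjoin ↥(GaloisRep.ratLocalizedAt ℓ) S) :
    ∃ y : LaurentSeries ↥(GaloisRep.ratLocalizedAt ℓ), toQ ℓ y = (x : LaurentSeries ℚ) := by
  induction hx using Algebra.adjoin_induction with
  | mem y hy =>
    rcases hS hy with rfl | rfl
    · exact ⟨jqModC _, toQ_jqModC ℓ⟩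
    · obtain ⟨u, hu⟩ := exists_jqModC_inv ↥(GaloisRep.ratLocalizedAt ℓ)
      refine ⟨u, ?_⟩
      have h1 := congrArg (toQ ℓ) hu
      rw [map_mul, map_one, toQ_jqModC] at h1
      show toQ ℓ u = (jq : LaurentSeries ℚ)⁻¹
      exact eq_inv_of_mul_eq_one_left h1
  | algebraMap r =>
    obtain ⟨a, b, hb, hab⟩ := coe_algebraMap_mem_igV N ℓ r
    refine ⟨HahnSeries.C r, ?_⟩
    have := ratLocalizedAt_ringHom_ext
        ((algebraMap ↥(modularFunctionFieldFull N) (LaurentSeries ℚ)).comp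
          (algebraMap ↥(GaloisRep.ratLocalizedAt ℓ) ↥(modularFunctionFieldFull N)))
        ((toQ ℓ).comp HahnSeries.C)
    exact (congrArg (fun f : ↥(GaloisRep.ratLocalizedAt ℓ) →+* LaurentSeries ℚ => f r) this).symm
  | add y z _ _ hy hz =>
    obtain ⟨a, ha⟩ := hy
    obtain ⟨b, hb⟩ := hz
    exact ⟨a + b, by rw [map_add, ha, hb]; rfl⟩
  | mul y z _ _ hy hz =>
    obtain ⟨a, ha⟩ := hy
    obtain ⟨b, hb⟩ := hz
    exact ⟨a * b, by rw [map_mul, ha, hb]; rfl⟩

/-- **INT-Q**: the elements of a chart have `ℓ`-integral `q`-expansions. -/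
theorem exists_toQ_eq_of_mem_chartAlg {S : Set ↥(modularFunctionFieldFull N)}
    (hS : S ⊆ {jFull N, (jFull N)⁻¹}) {x : ↥(modularFunctionFieldFull N)}
    (hx : x ∈ chartAlg N ℓ S) :
    ∃ y : LaurentSeries ↥(GaloisRep.ratLocalizedAt ℓ), toQ ℓ y = (x : LaurentSeries ℚ) := by
  obtain ⟨a, c, hc, hfrac⟩ := (mem_igE_iff ℓ).mp (modularFunctionFieldFull_le_igE N ℓ x.2)
  refine exists_coeffMap_eq_of_isIntegral (ι := (GaloisRep.ratLocalizedAt ℓ).subtype)
    Subtype.val_injective (isCIC_ratLocalizedAt ℓ) _ a c hc hfrac ?_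
  rw [mem_chartAlg_iff] at hx
  let φ : ↥(Algebra.adjoin ↥(GaloisRep.ratLocalizedAt ℓ) S) →+*
      ↥((coeffMap (GaloisRep.ratLocalizedAt ℓ).subtype).range) :=
    RingHom.codRestrict
      ((algebraMap ↥(modularFunctionFieldFull N) (LaurentSeries ℚ)).comp
        (algebraMap ↥(Algebra.adjoin ↥(GaloisRep.ratLocalizedAt ℓ) S)
          ↥(modularFunctionFieldFull N)))
      _ (fun y => by
        obtain ⟨z, hz⟩ := exists_toQ_eq_of_mem_adjoin hS y.2
        exact ⟨z, hz⟩)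
  exact hx.map_of_comp_eq φ (algebraMap ↥(modularFunctionFieldFull N) (LaurentSeries ℚ))
    (by ext y; rfl)

/-- the `q`-expansion of an element of a chart, as a series over `ℤ_(ℓ)` -/
def chartQFun {S : Set ↥(modularFunctionFieldFull N)} (hS : S ⊆ {jFull N, (jFull N)⁻¹})
    (x : ↥(chartAlg N ℓ S)) : LaurentSeries ↥(GaloisRep.ratLocalizedAt ℓ) :=
  (exists_toQ_eq_of_mem_chartAlg hS x.2).choose

theorem toQ_chartQFun {S : Set ↥(modularFunctionFieldFull N)}
    (hS : S ⊆ {jFull N, (jFull N)⁻¹}) (x : ↥(chartAlg N ℓ S)) :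
    toQ ℓ (chartQFun hS x) = ((x : ↥(modularFunctionFieldFull N)) : LaurentSeries ℚ) :=
  (exists_toQ_eq_of_mem_chartAlg hS x.2).choose_spec

/-- **The `q`-expansion map of a chart.** -/
def chartQ {S : Set ↥(modularFunctionFieldFull N)} (hS : S ⊆ {jFull N, (jFull N)⁻¹}) :
    ↥(chartAlg N ℓ S) →+* LaurentSeries ↥(GaloisRep.ratLocalizedAt ℓ) where
  toFun := chartQFun hS
  map_one' := toQ_injective ℓ (by rw [toQ_chartQFun, map_one]; rfl)
  map_mul' x y := toQ_injective ℓ (by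
    rw [toQ_chartQFun, map_mul, toQ_chartQFun, toQ_chartQFun]; rfl)
  map_zero' := toQ_injective ℓ (by rw [toQ_chartQFun, map_zero]; rfl)
  map_add' x y := toQ_injective ℓ (by
    rw [toQ_chartQFun, map_add, toQ_chartQFun, toQ_chartQFun]; rfl)

@[simp]
theorem toQ_chartQ {S : Set ↥(modularFunctionFieldFull N)}
    (hS : S ⊆ {jFull N, (jFull N)⁻¹}) (x : ↥(chartAlg N ℓ S)) :
    toQ ℓ (chartQ hS x) = ((x : ↥(modularFunctionFieldFull N)) : LaurentSeries ℚ) :=
  toQ_chartQFun hS x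

theorem chartQ_injective {S : Set ↥(modularFunctionFieldFull N)}
    (hS : S ⊆ {jFull N, (jFull N)⁻¹}) : Function.Injective (chartQ (ℓ := ℓ) hS) := by
  intro x y h
  apply Subtype.ext
  apply Subtype.ext
  rw [← toQ_chartQ hS x, ← toQ_chartQ hS y, h]

/-- the reduction of S28 is the coefficientwise reduction of the `q`-expansion -/
theorem toRes_chartQ {S : Set ↥(modularFunctionFieldFull N)}
    (hS : S ⊆ {jFull N, (jFull N)⁻¹}) (x : ↥(chartAlg N ℓ S)) :
    toRes ℓ (chartQ hS x) = chartRed hS x := by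
  rw [chartRed_apply, ← igRed_toQ]
  congr 1
  exact Subtype.ext (toQ_chartQ hS x)

theorem chartQ_algebraMap {S : Set ↥(modularFunctionFieldFull N)}
    (hS : S ⊆ {jFull N, (jFull N)⁻¹}) (r : ↥(GaloisRep.ratLocalizedAt ℓ)) :
    chartQ hS (algebraMap ↥(GaloisRep.ratLocalizedAt ℓ) ↥(chartAlg N ℓ S) r) = HahnSeries.C r := by
  apply toQ_injective ℓ
  rw [toQ_chartQ]
  have := ratLocalizedAt_ringHom_ext
      ((algebraMap ↥(modularFunctionFieldFull N) (LaurentSeries ℚ)).comp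
        (algebraMap ↥(GaloisRep.ratLocalizedAt ℓ) ↥(modularFunctionFieldFull N)))
      ((toQ ℓ).comp HahnSeries.C)
  exact congrArg (fun f : ↥(GaloisRep.ratLocalizedAt ℓ) →+* LaurentSeries ℚ => f r) this

theorem chartQ_jChartFin :
    chartQ (sFin_subset N) (jChartFin N ℓ) = jqModC ↥(GaloisRep.ratLocalizedAt ℓ) := by
  apply toQ_injective ℓ
  rw [toQ_chartQ, toQ_jqModC]
  rfl

theorem chartQ_jInvChartInf_mul :
    chartQ (sInf_subset N) (jInvChartInf N ℓ) * jqModC ↥(GaloisRep.ratLocalizedAt ℓ) = 1 := by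
  apply toQ_injective ℓ
  rw [map_mul, toQ_chartQ, toQ_jqModC, map_one]
  show (jq : LaurentSeries ℚ)⁻¹ * jq = 1
  exact inv_mul_cancel₀ jq_ne_zero

end Fermat.Agent.S37.H879
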