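import Mathlib

/-!
# S37 / R-b (helper879): fractions with denominators in the base ring form a field

`L` a field, `ρ : B →+* L`, `φ : P →+* B` with `B` integral over `P`.  Then
`{z ∈ L | ∃ g : P, ∃ b : B, ρ (φ g) ≠ 0 ∧ ρ (φ g) * z = ρ b}` is a subfield of `L`
(`denomField`): the fraction field of `ρ(B)`, every element written with a denominator from `P`.
-/

set_option autoImplicit false
set_option linter.style.haveILetI false

noncomputable section

namespace Fermat.Agent.S37.H879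

open Polynomial

section Denom

variable {L : Type*} [Field L]

/-- A nonzero element of `C` (integral over `Λ ≤ C`) divides, in `C`, a nonzero element of
`Λ`. -/
theorem exists_mul_mem_of_isIntegral (C Λ : Subring L) (hΛC : Λ ≤ C)
    {c : L} (hc : c ∈ C) (hint : IsIntegral Λ c) (hc0 : c ≠ 0) :
    ∃ s ∈ C, c * s ∈ Λ ∧ c * s ≠ 0 := by
  obtain ⟨p, hp, hpc⟩ := hint
  set f : Λ →+* C := Subring.inclusion hΛC with hf
  set r : C := ⟨c, hc⟩ with hr
  have hr0 : r ≠ 0 := fun h => hc0 (congrArg Subtype.val h)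
  have hpr : p.eval₂ f r = 0 := by
    apply Subtype.val_injective
    have h1 := Polynomial.hom_eval₂ p f C.subtype r
    have h2 : C.subtype.comp f = algebraMap Λ L := rfl
    rw [h2] at h1
    show C.subtype (p.eval₂ f r) = 0
    rw [h1]
    exact hpc
  obtain ⟨i, hi0, hi⟩ := Ideal.exists_coeff_ne_zero_mem_comap_of_root_mem
    (I := Ideal.span {r}) hr0 (Ideal.subset_span rfl) hp.ne_zero hpr
  rw [Ideal.mem_comap, Ideal.mem_span_singleton] at hi
  obtain ⟨s, hs⟩ := hi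
  have hval : ((p.coeff i : Λ) : L) = c * (s : L) := by
    have := congrArg Subtype.val hs
    exact this
  refine ⟨s, s.2, ?_, ?_⟩
  · rw [← hval]; exact (p.coeff i).2
  · rw [← hval]
    exact fun h => hi0 (Subtype.ext h)

variable {B P : Type*} [CommRing B] [CommRing P] (ρ : B →+* L) (φ : P →+* B)

/-- The field of fractions of `ρ(B)` with denominators from `P`. -/
def denomField (hint : ∀ b : B, φ.IsIntegralElem b) : Subfield L where
  carrier := {z | ∃ (g : P) (b : B), ρ (φ g) ≠ 0 ∧ ρ (φ g) * z = ρ b}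
  one_mem' := ⟨1, 1, by simp, by simp⟩
  zero_mem' := ⟨1, 0, by simp, by simp⟩
  mul_mem' := by
    rintro z₁ z₂ ⟨g₁, b₁, h₁, e₁⟩ ⟨g₂, b₂, h₂, e₂⟩
    refine ⟨g₁ * g₂, b₁ * b₂, ?_, ?_⟩
    · rw [map_mul, map_mul]; exact mul_ne_zero h₁ h₂
    · rw [map_mul, map_mul, map_mul, ← e₁, ← e₂]; ring
  add_mem' := by
    rintro z₁ z₂ ⟨g₁, b₁, h₁, e₁⟩ ⟨g₂, b₂, h₂, e₂⟩
    refine ⟨g₁ * g₂, φ g₂ * b₁ + φ g₁ * b₂, ?_, ?_⟩
    · rw [map_mul, map_mul]; exact mul_ne_zero h₁ h₂
    · rw [map_mul, map_mul, map_add, map_mul, map_mul, ← e₁, ← e₂]; ring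
  neg_mem' := by
    rintro z ⟨g, b, h, e⟩
    exact ⟨g, -b, h, by rw [map_neg, ← e]; ring⟩
  inv_mem' := by
    rintro z ⟨g, b, h, e⟩
    by_cases hz : z = 0
    · rw [hz, inv_zero]; exact ⟨1, 0, by simp, by simp⟩
    have hb0 : ρ b ≠ 0 := by rw [← e]; exact mul_ne_zero h hz
    -- integrality of `ρ b` over the image of `P`
    have hΛC : (ρ.comp φ).range ≤ ρ.range := by
      rintro _ ⟨g', rfl⟩
      exact ⟨φ g', rfl⟩
    have hintb : IsIntegral (ρ.comp φ).range (ρ b) := by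
      obtain ⟨p, hp, hpb⟩ := hint b
      refine ⟨p.map (ρ.comp φ).rangeRestrict, hp.map _, ?_⟩
      rw [Polynomial.eval₂_map]
      have h1 := Polynomial.hom_eval₂ p φ ρ b
      rw [hpb, map_zero] at h1
      have h2 : (algebraMap (ρ.comp φ).range L).comp (ρ.comp φ).rangeRestrict = ρ.comp φ := rfl
      rw [h2]
      exact h1.symm
    obtain ⟨s, ⟨c, rfl⟩, ⟨lam, hlam⟩, hne⟩ :=
      exists_mul_mem_of_isIntegral ρ.range (ρ.comp φ).range hΛC ⟨b, rfl⟩ hintb hb0
    refine ⟨lam, φ g * c, ?_, ?_⟩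
    · have : ρ (φ lam) = ρ b * ρ c := hlam
      rw [this]; exact hne
    · have h3 : ρ (φ lam) = ρ b * ρ c := hlam
      rw [h3, ← e, map_mul]
      field_simp

theorem mem_denomField (hint : ∀ b : B, φ.IsIntegralElem b) {z : L} :
    z ∈ denomField ρ φ hint ↔ ∃ (g : P) (b : B), ρ (φ g) ≠ 0 ∧ ρ (φ g) * z = ρ b := Iff.rfl

end Denom

end Fermat.Agent.S37.H879
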