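import Fermat.Agent.S37.H879.NormalChart
import Fermat.Agent.S37.H879.ChartFD
import Fermat.Agent.S37.H879.ChartQ
import Fermat.Agent.S37.H879.Denom
import Fermat.Agent.S37.H448.AscentAbs

/-!
# S37 / R-b (helper879): NORMAL-BASE — the special fibre of the `ℤ_(ℓ)`-chart is normal

`B = H138.chart ℤ_(ℓ) {t}` (`t = j` or `t = j⁻¹`), the same set as the Prelude chart
`IgusaScheme.chartAlg N ℓ {t}` ⊆ `F = ℚ(X₀(N))`.

* `redT`, `qT` : reduction `B → 𝔽_ℓ((q))` (S28) and `q`-expansion `B → ℤ_(ℓ)((q))` (`ChartQ`);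
* `redT_ker`, `prime_natCast_chart` : kernel `= ℓ B`, `ℓ` is prime in `B` (from (HC) of S28);
* `full_le_denomField` : every element of `F₀ = 𝔽_ℓ(X₀(N))` is `ρ(b)/ρ(g(t))`;
* `exists_redT_eq_of_isIntegral` : **NORMAL-BASE**: every `w ∈ F₀` integral over `𝔽_ℓ[t̄]` is
  `ρ(b₀)`, `b₀ ∈ B` — from `hsep`, `hNC` (shape of `S18.B12.H33.regularAlong_chart`).
-/

set_option autoImplicit false
set_option linter.style.haveILetI false
set_option linter.unusedSectionVars false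

noncomputable section

namespace Fermat.Agent.S37.H879

open HahnSeries ModularCurve ModularCurve.IgusaScheme Polynomial
open Fermat.Agent.S28 Fermat.Agent.S28.H865 Fermat.Agent.S18 Fermat.Agent.S18.B12.H33
open Fermat.Agent.S37.H448

variable {N : ℕ} [NeZero N] {ℓ : ℕ} [Fact ℓ.Prime]

section Generic

variable {t : ↥(modularFunctionFieldFull N)}

/-- chart of helper138 → chart of the Prelude (identity on elements) -/
def toIg : H138.chart ↥(GaloisRep.ratLocalizedAt ℓ) ({t} : Set ↥(modularFunctionFieldFull N)) →+*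
    ↥(chartAlg N ℓ {t}) where
  toFun b := ⟨b.1, b.2⟩
  map_one' := rfl
  map_mul' _ _ := rfl
  map_zero' := rfl
  map_add' _ _ := rfl

@[simp] theorem coe_toIg
    (b : H138.chart ↥(GaloisRep.ratLocalizedAt ℓ) ({t} : Set ↥(modularFunctionFieldFull N))) :
    ((toIg b : ↥(chartAlg N ℓ {t})) : ↥(modularFunctionFieldFull N)) = b := rfl

variable (hS : ({t} : Set ↥(modularFunctionFieldFull N)) ⊆ {jFull N, (jFull N)⁻¹})

/-- reduction mod `ℓ` of `q`-expansions on the chart -/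
def redT : H138.chart ↥(GaloisRep.ratLocalizedAt ℓ) ({t} : Set ↥(modularFunctionFieldFull N)) →+*
    LaurentSeries (ZMod ℓ) := (chartRed hS).comp toIg

/-- `q`-expansion on the chart -/
def qT : H138.chart ↥(GaloisRep.ratLocalizedAt ℓ) ({t} : Set ↥(modularFunctionFieldFull N)) →+*
    LaurentSeries ↥(GaloisRep.ratLocalizedAt ℓ) := (chartQ hS).comp toIg

theorem toRes_qT
    (b : H138.chart ↥(GaloisRep.ratLocalizedAt ℓ) ({t} : Set ↥(modularFunctionFieldFull N))) :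
    toRes ℓ (qT hS b) = redT hS b := toRes_chartQ hS (toIg b)

theorem toQ_qT
    (b : H138.chart ↥(GaloisRep.ratLocalizedAt ℓ) ({t} : Set ↥(modularFunctionFieldFull N))) :
    toQ ℓ (qT hS b) = ((b : ↥(modularFunctionFieldFull N)) : LaurentSeries ℚ) :=
  toQ_chartQ hS (toIg b)

theorem redT_apply
    (b : H138.chart ↥(GaloisRep.ratLocalizedAt ℓ) ({t} : Set ↥(modularFunctionFieldFull N))) :
    redT hS b = igRed ℓ ⟨((b : ↥(modularFunctionFieldFull N)) : LaurentSeries ℚ),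
      coe_mem_igV_of_mem_chartAlg hS (toIg b).2⟩ := rfl

theorem qT_algebraMap (r : ↥(GaloisRep.ratLocalizedAt ℓ)) :
    qT hS (algebraMap ↥(GaloisRep.ratLocalizedAt ℓ)
      (H138.chart ↥(GaloisRep.ratLocalizedAt ℓ) ({t} : Set ↥(modularFunctionFieldFull N))) r) =
      HahnSeries.C r :=
  chartQ_algebraMap hS r

theorem redT_algebraMap (r : ↥(GaloisRep.ratLocalizedAt ℓ)) :
    redT hS (algebraMap ↥(GaloisRep.ratLocalizedAt ℓ)
      (H138.chart ↥(GaloisRep.ratLocalizedAt ℓ) ({t} : Set ↥(modularFunctionFieldFull N))) r) =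
      HahnSeries.C (resZl ℓ r) := by
  rw [← toRes_qT, qT_algebraMap, toRes, coeffMap_C']

theorem qT_chartPolyHom (g : Polynomial ↥(GaloisRep.ratLocalizedAt ℓ)) :
    qT hS (chartPolyHom ↥(GaloisRep.ratLocalizedAt ℓ) t g) =
      evalSer ↥(GaloisRep.ratLocalizedAt ℓ)
        (qT hS (chartX ↥(GaloisRep.ratLocalizedAt ℓ) t)) g := by
  have h : (qT hS).comp (chartPolyHom ↥(GaloisRep.ratLocalizedAt ℓ) t :
      Polynomial ↥(GaloisRep.ratLocalizedAt ℓ) →+* _) =
      evalSer ↥(GaloisRep.ratLocalizedAt ℓ) (qT hS (chartX ↥(GaloisRep.ratLocalizedAt ℓ) t)) := by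
    refine Polynomial.ringHom_ext (fun r => ?_) ?_
    · simp only [RingHom.comp_apply, RingHom.coe_coe, chartPolyHom_C, qT_algebraMap]
      rw [evalSer_C]
    · simp only [RingHom.comp_apply, RingHom.coe_coe, chartPolyHom_apply, aeval_X]
      rw [evalSer_X]
  exact RingHom.congr_fun h g

theorem redT_chartPolyHom (g : Polynomial ↥(GaloisRep.ratLocalizedAt ℓ)) :
    redT hS (chartPolyHom ↥(GaloisRep.ratLocalizedAt ℓ) t g) =
      evalSer (ZMod ℓ) (redT hS (chartX ↥(GaloisRep.ratLocalizedAt ℓ) t))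
        (g.map (resZl ℓ)) := by
  have h : (redT hS).comp (chartPolyHom ↥(GaloisRep.ratLocalizedAt ℓ) t :
      Polynomial ↥(GaloisRep.ratLocalizedAt ℓ) →+* _) =
      (evalSer (ZMod ℓ) (redT hS (chartX ↥(GaloisRep.ratLocalizedAt ℓ) t))).comp
        (Polynomial.mapRingHom (resZl ℓ)) := by
    refine Polynomial.ringHom_ext (fun r => ?_) ?_
    · simp only [RingHom.comp_apply, RingHom.coe_coe, chartPolyHom_C, redT_algebraMap,
        Polynomial.coe_mapRingHom, Polynomial.map_C]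
      rw [evalSer_C]
    · simp only [RingHom.comp_apply, RingHom.coe_coe, chartPolyHom_apply, aeval_X,
        Polynomial.coe_mapRingHom, Polynomial.map_X]
      rw [evalSer_X]
  exact RingHom.congr_fun h g

theorem redT_natCast :
    redT hS (algebraMap ↥(GaloisRep.ratLocalizedAt ℓ)
      (H138.chart ↥(GaloisRep.ratLocalizedAt ℓ) ({t} : Set ↥(modularFunctionFieldFull N)))
      ((ℓ : ℕ) : ↥(GaloisRep.ratLocalizedAt ℓ))) = 0 := by
  rw [map_natCast, map_natCast]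
  exact natCast_laurent_zmod_eq_zero ℓ

/-- the hypothesis (HC) of S28 for the chart `{t}` -/
def HC (N : ℕ) [NeZero N] (ℓ : ℕ) [Fact ℓ.Prime] (t : ↥(modularFunctionFieldFull N)) : Prop :=
  ∀ a : ↥(modularFunctionFieldFull N), (a : LaurentSeries ℚ) ∈ igV ℓ →
    ∃ s : ↥(modularFunctionFieldFull N),
      s ∈ Algebra.adjoin ↥(GaloisRep.ratLocalizedAt ℓ)
        ({t} : Set ↥(modularFunctionFieldFull N)) ∧
      (¬ ∃ v ∈ igV ℓ, (s : LaurentSeries ℚ) = ((ℓ : ℕ) : LaurentSeries ℚ) * v) ∧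
      s * a ∈ chartAlg N ℓ {t}

/-- the kernel of the reduction is `ℓ B` -/
theorem redT_ker (ht : Transcendental ↥(GaloisRep.ratLocalizedAt ℓ) t) (hHC : HC N ℓ t)
    (z : H138.chart ↥(GaloisRep.ratLocalizedAt ℓ) ({t} : Set ↥(modularFunctionFieldFull N)))
    (hz : redT hS z = 0) :
    algebraMap ↥(GaloisRep.ratLocalizedAt ℓ)
      (H138.chart ↥(GaloisRep.ratLocalizedAt ℓ) ({t} : Set ↥(modularFunctionFieldFull N)))
      ((ℓ : ℕ) : ↥(GaloisRep.ratLocalizedAt ℓ)) ∣ z := by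
  obtain ⟨y, hy⟩ := chartRed_ker_le N ℓ hS ht hHC (toIg z) hz
  refine ⟨⟨y.1, y.2⟩, ?_⟩
  apply Subtype.ext
  have h1 := congrArg (fun u : ↥(chartAlg N ℓ {t}) => (u : ↥(modularFunctionFieldFull N))) hy
  simp only [coe_toIg] at h1
  rw [h1, map_natCast]
  rfl

include hS in
/-- `ℓ` is prime in the chart -/
theorem prime_natCast_chart (ht : Transcendental ↥(GaloisRep.ratLocalizedAt ℓ) t)
    (hHC : HC N ℓ t) :
    Prime (algebraMap ↥(GaloisRep.ratLocalizedAt ℓ)
      (H138.chart ↥(GaloisRep.ratLocalizedAt ℓ) ({t} : Set ↥(modularFunctionFieldFull N)))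
      ((ℓ : ℕ) : ↥(GaloisRep.ratLocalizedAt ℓ))) := by
  refine ⟨?_, ?_, ?_⟩
  · rw [map_natCast]
    exact_mod_cast (Fact.out : ℓ.Prime).ne_zero
  · intro hu
    have h1 := hu.map (redT hS)
    rw [redT_natCast] at h1
    exact not_isUnit_zero h1
  · intro a b hab
    obtain ⟨c, hc⟩ := hab
    have h1 : redT hS a * redT hS b = 0 := by
      rw [← map_mul, hc, map_mul, redT_natCast, zero_mul]
    rcases mul_eq_zero.1 h1 with h | h
    · exact Or.inl (redT_ker hS ht hHC a h)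
    · exact Or.inr (redT_ker hS ht hHC b h)

/-- the chart is integral over `ℤ_(ℓ)[X]` -/
theorem isIntegralElem_chartPolyHom (ht : Transcendental ↥(GaloisRep.ratLocalizedAt ℓ) t)
    [FiniteDimensional (H138.baseField ↥(GaloisRep.ratLocalizedAt ℓ) t)
      ↥(modularFunctionFieldFull N)]
    (b : H138.chart ↥(GaloisRep.ratLocalizedAt ℓ) ({t} : Set ↥(modularFunctionFieldFull N))) :
    (chartPolyHom ↥(GaloisRep.ratLocalizedAt ℓ) t :
      Polynomial ↥(GaloisRep.ratLocalizedAt ℓ) →+* _).IsIntegralElem b := by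
  haveI := isIntegrallyClosed_polynomial_ratLocalizedAt ℓ
  obtain ⟨_, hfin⟩ := chart_package (R := ↥(GaloisRep.ratLocalizedAt ℓ)) ht
  letI := chartAlgebra ↥(GaloisRep.ratLocalizedAt ℓ) t
  haveI := hfin
  exact Algebra.IsIntegral.isIntegral (R := Polynomial ↥(GaloisRep.ratLocalizedAt ℓ)) b

theorem igRed_mul_coe {x y : LaurentSeries ℚ} (hx : x ∈ igV ℓ) (hy : y ∈ igV ℓ)
    (hxy : x * y ∈ igV ℓ) :
    igRed ℓ ⟨x * y, hxy⟩ = igRed ℓ ⟨x, hx⟩ * igRed ℓ ⟨y, hy⟩ := by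
  rw [← map_mul]
  rfl

include hS in
/-- **DENOM**: every element of `F₀ = 𝔽_ℓ(X₀(N))` is a fraction `ρ(b)/ρ(g(t))`. -/
theorem exists_denom (ht : Transcendental ↥(GaloisRep.ratLocalizedAt ℓ) t) (hHC : HC N ℓ t)
    [FiniteDimensional (H138.baseField ↥(GaloisRep.ratLocalizedAt ℓ) t)
      ↥(modularFunctionFieldFull N)]
    {w : LaurentSeries (ZMod ℓ)} (hw : w ∈ modularFunctionFieldFullC (ZMod ℓ) N) :
    ∃ (g : Polynomial ↥(GaloisRep.ratLocalizedAt ℓ))
      (b : H138.chart ↥(GaloisRep.ratLocalizedAt ℓ) ({t} : Set ↥(modularFunctionFieldFull N))),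
      redT hS (chartPolyHom ↥(GaloisRep.ratLocalizedAt ℓ) t g) ≠ 0 ∧
      redT hS (chartPolyHom ↥(GaloisRep.ratLocalizedAt ℓ) t g) * w = redT hS b := by
  classical
  set T := denomField (redT hS)
    (chartPolyHom ↥(GaloisRep.ratLocalizedAt ℓ) t :
      Polynomial ↥(GaloisRep.ratLocalizedAt ℓ) →+*
        H138.chart ↥(GaloisRep.ratLocalizedAt ℓ) ({t} : Set ↥(modularFunctionFieldFull N)))
    (isIntegralElem_chartPolyHom ht) with hT
  have hconst : ∀ a : ZMod ℓ, algebraMap (ZMod ℓ) (LaurentSeries (ZMod ℓ)) a ∈ T := by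
    intro a
    have h1 : a = ((a.val : ℕ) : ZMod ℓ) := (ZMod.natCast_zmod_val a).symm
    rw [h1, map_natCast]
    exact natCast_mem T _
  have hle : modularFunctionFieldFullC (ZMod ℓ) N ≤ T.toIntermediateField hconst := by
    rw [modularFunctionFieldFullC, IntermediateField.adjoin_le_iff]
    rintro x ⟨d, hd0, hd, rfl⟩
    haveI := hd0
    show qExpand (ZMod ℓ) d (jqModC (ZMod ℓ)) ∈ T
    set a : ↥(modularFunctionFieldFull N) := ⟨qExpand ℚ d jq, jqd_mem_full N hd⟩ with ha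
    have haV : (a : LaurentSeries ℚ) ∈ igV ℓ := qExpand_jq_mem_igV ℓ d
    obtain ⟨s, hs, hsv, hsa⟩ := hHC a haV
    rw [Algebra.adjoin_singleton_eq_range_aeval] at hs
    obtain ⟨g, hg⟩ := hs
    have hg' : aeval t g = s := hg
    have hsV : (s : LaurentSeries ℚ) ∈ igV ℓ := by
      have := coe_mem_igV_of_mem_chartAlg hS
        (toIg (chartPolyHom ↥(GaloisRep.ratLocalizedAt ℓ) t g)).2
      rw [coe_toIg, coe_chartPolyHom, hg'] at this
      exact this
    have h1 : redT hS (chartPolyHom ↥(GaloisRep.ratLocalizedAt ℓ) t g) =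
        igRed ℓ ⟨(s : LaurentSeries ℚ), hsV⟩ := by
      rw [redT_apply]
      congr 1
      apply Subtype.ext
      show ((chartPolyHom ↥(GaloisRep.ratLocalizedAt ℓ) t g :
        ↥(modularFunctionFieldFull N)) : LaurentSeries ℚ) = s
      rw [coe_chartPolyHom, hg']
    have hne : igRed ℓ ⟨(s : LaurentSeries ℚ), hsV⟩ ≠ 0 := by
      intro h0
      exact hsv (exists_eq_mul_of_igRed_eq_zero ℓ hsV h0)
    set b : H138.chart ↥(GaloisRep.ratLocalizedAt ℓ)
      ({t} : Set ↥(modularFunctionFieldFull N)) := ⟨s * a, hsa⟩ with hb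
    have hsaV : (s : LaurentSeries ℚ) * (a : LaurentSeries ℚ) ∈ igV ℓ :=
      (igV ℓ).mul_mem hsV haV
    have h2 : redT hS b = igRed ℓ ⟨(s : LaurentSeries ℚ), hsV⟩ *
        igRed ℓ ⟨(a : LaurentSeries ℚ), haV⟩ := by
      rw [redT_apply, ← igRed_mul_coe hsV haV hsaV]
      rfl
    refine ⟨g, b, ?_, ?_⟩
    · show redT hS (chartPolyHom ↥(GaloisRep.ratLocalizedAt ℓ) t g) ≠ 0
      rw [h1]; exact hne
    · show redT hS (chartPolyHom ↥(GaloisRep.ratLocalizedAt ℓ) t g) * _ = redT hS b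
      rw [h1, h2]
      congr 1
      exact (igRed_qExpand_jq ℓ d).symm
  exact hle hw

include hS in
/-- **NORMAL-BASE** (generic chart `{t}`): every `w ∈ 𝔽_ℓ(X₀(N))` integral over `𝔽_ℓ[t̄]` is the
reduction of an element of the chart. -/
theorem exists_redT_eq_of_isIntegral (ht : Transcendental ↥(GaloisRep.ratLocalizedAt ℓ) t)
    (hHC : HC N ℓ t)
    [FiniteDimensional (H138.baseField ↥(GaloisRep.ratLocalizedAt ℓ) t)
      ↥(modularFunctionFieldFull N)]
    (hsep : ∀ b : H138.chart ↥(GaloisRep.ratLocalizedAt ℓ)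
        ({t} : Set ↥(modularFunctionFieldFull N)),
      ∃ P : Polynomial (Polynomial ↥(GaloisRep.ratLocalizedAt ℓ)),
        algebraMap ↥(GaloisRep.ratLocalizedAt ℓ) (H138.chart ↥(GaloisRep.ratLocalizedAt ℓ)
          ({t} : Set ↥(modularFunctionFieldFull N))) ((ℓ : ℕ) : ↥(GaloisRep.ratLocalizedAt ℓ)) ∣
          P.eval₂ (chartPolyHom ↥(GaloisRep.ratLocalizedAt ℓ) t :
            Polynomial ↥(GaloisRep.ratLocalizedAt ℓ) →+* _) b ∧
        ¬ algebraMap ↥(GaloisRep.ratLocalizedAt ℓ) (H138.chart ↥(GaloisRep.ratLocalizedAt ℓ)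
          ({t} : Set ↥(modularFunctionFieldFull N))) ((ℓ : ℕ) : ↥(GaloisRep.ratLocalizedAt ℓ)) ∣
          (derivative P).eval₂ (chartPolyHom ↥(GaloisRep.ratLocalizedAt ℓ) t :
            Polynomial ↥(GaloisRep.ratLocalizedAt ℓ) →+* _) b)
    (S : Finset ↥(GaloisRep.ratLocalizedAt ℓ))
    (hSd : ∀ c ∈ S, ∀ c' ∈ S, c ≠ c' → IsUnit (c - c'))
    (hNC : ∀ π : Polynomial ↥(GaloisRep.ratLocalizedAt ℓ), Prime π →
      ¬ Associated π (Polynomial.C ((ℓ : ℕ) : ↥(GaloisRep.ratLocalizedAt ℓ))) →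
      (∀ c ∈ S, ¬ Associated π (Polynomial.X - Polynomial.C c)) →
      (Ideal.span {chartPolyHom ↥(GaloisRep.ratLocalizedAt ℓ) t π}).IsRadical)
    {w : LaurentSeries (ZMod ℓ)} (hw : w ∈ modularFunctionFieldFullC (ZMod ℓ) N)
    (hwi : (evalSer (ZMod ℓ)
      (redT hS (chartX ↥(GaloisRep.ratLocalizedAt ℓ) t))).IsIntegralElem w) :
    ∃ b₀ : H138.chart ↥(GaloisRep.ratLocalizedAt ℓ) ({t} : Set ↥(modularFunctionFieldFull N)),
      redT hS b₀ = w := by
  classical
  obtain ⟨g, b, hg, hε⟩ := exists_denom hS ht hHC hw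
  refine normal_chart_red ht ((ℓ : ℕ) : ↥(GaloisRep.ratLocalizedAt ℓ))
    (prime_natCast_ratLocalizedAt ℓ).irreducible (prime_natCast_chart hS ht hHC) hsep S hSd hNC
    (redT hS) (redT_natCast hS) (redT_ker hS ht hHC) w b g hg hε ?_
  -- integrality over the image of the chart
  obtain ⟨p, hp, hpw⟩ := hwi
  have hsurj : Function.Surjective (Polynomial.mapRingHom (resZl ℓ)) := by
    refine Polynomial.map_surjective _ ?_
    intro a
    refine ⟨((a.val : ℕ) : ↥(GaloisRep.ratLocalizedAt ℓ)), ?_⟩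
    rw [map_natCast, ZMod.natCast_zmod_val]
  have hlift : p ∈ Polynomial.lifts (Polynomial.mapRingHom (resZl ℓ)) := by
    rw [Polynomial.lifts_iff_coeff_lifts]
    intro n
    exact hsurj _
  obtain ⟨p', hp'1, -, hp'3⟩ := Polynomial.lifts_and_degree_eq_and_monic hlift hp
  refine ⟨p'.map (chartPolyHom ↥(GaloisRep.ratLocalizedAt ℓ) t :
      Polynomial ↥(GaloisRep.ratLocalizedAt ℓ) →+* _), hp'3.map _, ?_⟩
  rw [Polynomial.eval₂_map]
  have hcomp : (redT hS).comp (chartPolyHom ↥(GaloisRep.ratLocalizedAt ℓ) t :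
      Polynomial ↥(GaloisRep.ratLocalizedAt ℓ) →+* _) =
      (evalSer (ZMod ℓ) (redT hS (chartX ↥(GaloisRep.ratLocalizedAt ℓ) t))).comp
        (Polynomial.mapRingHom (resZl ℓ)) :=
    RingHom.ext (fun g' => redT_chartPolyHom hS g')
  rw [hcomp, ← Polynomial.eval₂_map, hp'1]
  exact hpw

end Generic

end Fermat.Agent.S37.H879
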