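import Fermat.Agent.S37.H879.NormalBase
import Fermat.Agent.S18.H754.HncTyped
import Fermat.Agent.S18.H997.BranchField
import Fermat.Agent.S18.H456.ModBasic

/-!
# S37 / R-b (helper879): the modular input `HNC` (unramified outside the branch values)

For `ℓ ≥ 5`, `ℓ ∤ N`: `HNC N ℓ (jFull N) {0, 1728}` and `HNC N ℓ (jFull N)⁻¹ {0, 1728⁻¹}` for the
charts of the `ℤ_(ℓ)`-model, from
* `S18.H997.branchFields` (the cover `X₀(N) → X(1)` over `ℚ̄` is unramified outside
  `j = 0, 1728, ∞`), and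
* `S18.H754.hNC_typed` (unramified ⟹ the fibres `B/πB` are reduced).
-/

set_option autoImplicit false
set_option linter.style.haveILetI false
set_option linter.unusedSectionVars false
set_option synthInstance.maxHeartbeats 400000

noncomputable section

namespace Fermat.Agent.S37.H879

open HahnSeries ModularCurve ModularCurve.IgusaScheme Polynomial
open Fermat.Agent.S28 Fermat.Agent.S28.H865 Fermat.Agent.S18 Fermat.Agent.S18.B12.H33
open Fermat.Agent.S18.Mod

section Inv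

variable {Ω : Type*} [Field Ω]

/-- unramifiedness for `x` away from `{0, n}` gives unramifiedness for `x⁻¹` away from
`{0, n⁻¹}` -/
theorem unramified_inv (Lc : Subfield Ω) (x n : Ω)
    (hunr : ∀ O : ValuationSubring Ω, (∀ a ∈ Lc, a ∈ O) → ∀ c ∈ Lc, c ≠ 0 → c ≠ n →
      x - c ∈ O → (x - c)⁻¹ ∉ O → ∀ t ∈ O, t⁻¹ ∉ O → t * (x - c)⁻¹ ∈ O) :
    ∀ O : ValuationSubring Ω, (∀ a ∈ Lc, a ∈ O) → ∀ c ∈ Lc, c ≠ 0 → c ≠ n⁻¹ →
      x⁻¹ - c ∈ O → (x⁻¹ - c)⁻¹ ∉ O → ∀ t ∈ O, t⁻¹ ∉ O → t * (x⁻¹ - c)⁻¹ ∈ O := by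
  intro O hO c hc hc0 hcn hmem hinv t ht htinv
  have hcO : c ∈ O := hO c hc
  have hciO : c⁻¹ ∈ O := hO _ (Lc.inv_mem hc)
  have hxi : x⁻¹ ∈ O := by
    have := O.add_mem _ _ hmem hcO
    simpa using this
  -- `x ≠ 0`
  have hx0 : x ≠ 0 := by
    rintro rfl
    apply hinv
    rw [inv_zero, zero_sub, inv_neg]
    exact O.neg_mem _ hciO
  -- `x ∈ O`
  have hxO : x ∈ O := by
    by_contra hx
    -- then `x⁻¹` is a non-unit and `x⁻¹ - c` is a unit
    have h1 : O.valuation x⁻¹ < 1 := by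
      have h3 : O.valuation x⁻¹ ≤ 1 := (O.valuation_le_one_iff _).2 hxi
      refine lt_of_le_of_ne h3 (fun h => hx ?_)
      rw [← O.valuation_le_one_iff]
      have : O.valuation x = (O.valuation x⁻¹)⁻¹ := by rw [map_inv₀, inv_inv]
      rw [this, h, inv_one]
    have h2 : O.valuation c = 1 := by
      have h3 : O.valuation c ≤ 1 := (O.valuation_le_one_iff _).2 hcO
      have h4 : O.valuation c⁻¹ ≤ 1 := (O.valuation_le_one_iff _).2 hciO
      rw [map_inv₀] at h4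
      have h5 : O.valuation c ≠ 0 := (Valuation.ne_zero_iff _).2 hc0
      exact le_antisymm h3 ((inv_le_one₀ (zero_lt_iff.2 h5)).1 h4)
    have h6 : O.valuation (x⁻¹ - c) = 1 := by
      have : O.valuation (x⁻¹ - c) = O.valuation c := by
        rw [sub_eq_add_neg]
        have h7 : O.valuation x⁻¹ < O.valuation (-c) := by rw [Valuation.map_neg, h2]; exact h1
        rw [Valuation.map_add_eq_of_lt_right _ h7, Valuation.map_neg]
      rw [this, h2]
    apply hinv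
    rw [← O.valuation_le_one_iff, map_inv₀, h6, inv_one]
  have hid : x⁻¹ - c = -(c * x⁻¹) * (x - c⁻¹) := by
    field_simp
    ring
  have hmem' : x - c⁻¹ ∈ O := sub_mem hxO hciO
  have hne : x - c⁻¹ ≠ 0 := by
    intro h0
    rw [hid, h0, mul_zero] at hinv
    exact hinv (by rw [inv_zero]; exact O.zero_mem)
  have hinv' : (x - c⁻¹)⁻¹ ∉ O := by
    intro h
    apply hinv
    have : (x⁻¹ - c)⁻¹ = -(c⁻¹ * x) * (x - c⁻¹)⁻¹ := by
      rw [hid]
      field_simp
    rw [this]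
    exact O.mul_mem _ _ (O.neg_mem _ (O.mul_mem _ _ hciO hxO)) h
  have key := hunr O hO c⁻¹ (Lc.inv_mem hc) (inv_ne_zero hc0)
    (fun h => hcn (by rw [← h, inv_inv])) hmem' hinv' t ht htinv
  have : t * (x⁻¹ - c)⁻¹ = t * (x - c⁻¹)⁻¹ * (-(c⁻¹ * x)) := by
    rw [hid]
    field_simp
  rw [this]
  exact O.mul_mem _ _ key (O.neg_mem _ (O.mul_mem _ _ hciO hxO))

end Inv

variable {N : ℕ} [NeZero N] {ℓ : ℕ} [Fact ℓ.Prime]

/-- the embedding `ℚ(X₀(N)) → ℚ̄(X₀(N))` -/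
def embOm : ↥(modularFunctionFieldFull N) →+* Om N where
  toFun f := ⟨coeffEmb Qb (f : LaurentSeries ℚ), coeffEmb_mem_laurentBaseChange Qb f.2⟩
  map_one' := Subtype.ext (map_one (coeffEmb Qb))
  map_mul' _ _ := Subtype.ext (map_mul (coeffEmb Qb) _ _)
  map_zero' := Subtype.ext (map_zero (coeffEmb Qb))
  map_add' _ _ := Subtype.ext (map_add (coeffEmb Qb) _ _)

theorem embOm_jFull : embOm (jFull N) = jOm N := by
  apply Subtype.ext
  show coeffEmb Qb jq = coeffEmb Qb (qExpand ℚ 1 jq)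
  rw [qExpand_one_apply]

/-- **HNC from unramifiedness over `ℚ̄`** (generic chart `{t}`). -/
theorem hnc_of_unramified {t : ↥(modularFunctionFieldFull N)}
    (hS : ({t} : Set ↥(modularFunctionFieldFull N)) ⊆ {jFull N, (jFull N)⁻¹})
    (ht : Transcendental ↥(GaloisRep.ratLocalizedAt ℓ) t) (hHC : HC N ℓ t)
    [FiniteDimensional (H138.baseField ↥(GaloisRep.ratLocalizedAt ℓ) t)
      ↥(modularFunctionFieldFull N)]
    (S : Finset ↥(GaloisRep.ratLocalizedAt ℓ)) (SΩ : Finset (Om N))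
    (hSΩ : ∀ c ∈ SΩ, ∃ s ∈ S, algebraMap Qb (Om N) (algebraMap ℚ Qb (s : ℚ)) = c)
    (hunr : ∀ O : ValuationSubring (Om N), (∀ a ∈ Lc N, a ∈ O) → ∀ c ∈ Lc N, c ∉ SΩ →
      embOm t - c ∈ O → (embOm t - c)⁻¹ ∉ O → ∀ u ∈ O, u⁻¹ ∉ O → u * (embOm t - c)⁻¹ ∈ O) :
    HNC N ℓ t S := by
  classical
  haveI : CharZero ↥(GaloisRep.ratLocalizedAt ℓ) :=
    (algebraMap ↥(GaloisRep.ratLocalizedAt ℓ) ↥(modularFunctionFieldFull N)).charZero
  haveI := isIntegrallyClosed_polynomial_ratLocalizedAt ℓ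
  obtain ⟨hic, hfin⟩ := chart_package (R := ↥(GaloisRep.ratLocalizedAt ℓ)) ht
  letI := chartAlgebra ↥(GaloisRep.ratLocalizedAt ℓ) t
  haveI := hic
  haveI := hfin
  haveI : Module.IsTorsionFree (Polynomial ↥(GaloisRep.ratLocalizedAt ℓ))
      (H138.chart ↥(GaloisRep.ratLocalizedAt ℓ) ({t} : Set ↥(modularFunctionFieldFull N))) :=
    Module.isTorsionFree_iff_algebraMap_injective.2 (chartPolyHom_injective ht)
  let ιB : H138.chart ↥(GaloisRep.ratLocalizedAt ℓ) ({t} : Set ↥(modularFunctionFieldFull N)) →+*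
      Om N := embOm.comp
    (H138.chart ↥(GaloisRep.ratLocalizedAt ℓ) ({t} : Set ↥(modularFunctionFieldFull N))).val.toRingHom
  letI : Algebra (H138.chart ↥(GaloisRep.ratLocalizedAt ℓ)
      ({t} : Set ↥(modularFunctionFieldFull N))) (Om N) := ιB.toAlgebra
  have hinj : Function.Injective ιB := by
    intro a b hab
    have h1 : embOm (a : ↥(modularFunctionFieldFull N)) = embOm (b : ↥(modularFunctionFieldFull N)) :=
      hab
    exact Subtype.ext (embOm.injective h1)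
  haveI : @FaithfulSMul (H138.chart ↥(GaloisRep.ratLocalizedAt ℓ)
      ({t} : Set ↥(modularFunctionFieldFull N))) (Om N) Algebra.toSMul :=
    (faithfulSMul_iff_algebraMap_injective _ _).2 hinj
  have hCw : algebraMap (Polynomial ↥(GaloisRep.ratLocalizedAt ℓ))
      (H138.chart ↥(GaloisRep.ratLocalizedAt ℓ) ({t} : Set ↥(modularFunctionFieldFull N)))
      (Polynomial.C ((ℓ : ℕ) : ↥(GaloisRep.ratLocalizedAt ℓ)))
      = algebraMap ↥(GaloisRep.ratLocalizedAt ℓ) (H138.chart ↥(GaloisRep.ratLocalizedAt ℓ)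
        ({t} : Set ↥(modularFunctionFieldFull N))) ((ℓ : ℕ) : ↥(GaloisRep.ratLocalizedAt ℓ)) :=
    chartPolyHom_C t _
  have hwB : Prime (algebraMap (Polynomial ↥(GaloisRep.ratLocalizedAt ℓ))
      (H138.chart ↥(GaloisRep.ratLocalizedAt ℓ) ({t} : Set ↥(modularFunctionFieldFull N)))
      (Polynomial.C ((ℓ : ℕ) : ↥(GaloisRep.ratLocalizedAt ℓ)))) := by
    rw [hCw]; exact prime_natCast_chart hS ht hHC
  -- the constants
  have hconst : (ιB.comp ((algebraMap (Polynomial ↥(GaloisRep.ratLocalizedAt ℓ))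
      (H138.chart ↥(GaloisRep.ratLocalizedAt ℓ)
        ({t} : Set ↥(modularFunctionFieldFull N)))).comp Polynomial.C)) =
      ((algebraMap Qb (Om N)).comp (algebraMap ℚ Qb)).comp
        (GaloisRep.ratLocalizedAt ℓ).subtype := ratLocalizedAt_ringHom_ext _ _
  have hconst' : ∀ r : ↥(GaloisRep.ratLocalizedAt ℓ),
      algebraMap (H138.chart ↥(GaloisRep.ratLocalizedAt ℓ)
        ({t} : Set ↥(modularFunctionFieldFull N))) (Om N)
        (algebraMap (Polynomial ↥(GaloisRep.ratLocalizedAt ℓ))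
          (H138.chart ↥(GaloisRep.ratLocalizedAt ℓ)
            ({t} : Set ↥(modularFunctionFieldFull N))) (Polynomial.C r)) =
      algebraMap Qb (Om N) (algebraMap ℚ Qb (r : ℚ)) :=
    fun r => RingHom.congr_fun hconst r
  have hX : algebraMap (H138.chart ↥(GaloisRep.ratLocalizedAt ℓ)
        ({t} : Set ↥(modularFunctionFieldFull N))) (Om N)
        (algebraMap (Polynomial ↥(GaloisRep.ratLocalizedAt ℓ))
          (H138.chart ↥(GaloisRep.ratLocalizedAt ℓ)
            ({t} : Set ↥(modularFunctionFieldFull N))) Polynomial.X) = embOm t := by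
    show embOm ((chartPolyHom ↥(GaloisRep.ratLocalizedAt ℓ) t Polynomial.X :
      H138.chart ↥(GaloisRep.ratLocalizedAt ℓ) ({t} : Set ↥(modularFunctionFieldFull N))) :
      ↥(modularFunctionFieldFull N)) = embOm t
    rw [coe_chartPolyHom, aeval_X]
  have key := H754.hNC_typed ↥(GaloisRep.ratLocalizedAt ℓ)
    (H138.chart ↥(GaloisRep.ratLocalizedAt ℓ) ({t} : Set ↥(modularFunctionFieldFull N)))
    ((ℓ : ℕ) : ↥(GaloisRep.ratLocalizedAt ℓ)) (prime_natCast_ratLocalizedAt ℓ).irreducible hwB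
    (Lc N) (H456.field_L_algClosed N)
    (fun r => by rw [hconst']; exact ⟨_, rfl⟩)
    (fun a ha => by
      obtain ⟨c, rfl⟩ := ha
      have hc : IsAlgebraic ℚ c := (AlgebraicClosure.isAlgebraic ℚ).isAlgebraic c
      have hcZ : IsAlgebraic ℤ c := (IsFractionRing.isAlgebraic_iff ℤ ℚ Qb).2 hc
      obtain ⟨p₀, hp0, hp⟩ := hcZ
      refine ⟨p₀.map (Int.castRingHom ↥(GaloisRep.ratLocalizedAt ℓ)),
        (Polynomial.map_ne_zero_iff (RingHom.injective_int _)).2 hp0, ?_⟩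
      rw [Polynomial.eval₂_map]
      have h1 : (((algebraMap (H138.chart ↥(GaloisRep.ratLocalizedAt ℓ)
          ({t} : Set ↥(modularFunctionFieldFull N))) (Om N)).comp
          ((algebraMap (Polynomial ↥(GaloisRep.ratLocalizedAt ℓ))
            (H138.chart ↥(GaloisRep.ratLocalizedAt ℓ)
              ({t} : Set ↥(modularFunctionFieldFull N)))).comp Polynomial.C)).comp
          (Int.castRingHom ↥(GaloisRep.ratLocalizedAt ℓ))) =
          (algebraMap Qb (Om N)).comp (algebraMap ℤ Qb) := RingHom.ext_int _ _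
      rw [h1, ← Polynomial.hom_eval₂]
      rw [Polynomial.aeval_def] at hp
      rw [hp, map_zero])
    S SΩ
    (fun c hc => by
      obtain ⟨s, hs, hsc⟩ := hSΩ c hc
      exact ⟨s, hs, by rw [hconst']; exact hsc⟩)
    (fun O hO c hc hcS h1 h2 u hu hu' => by
      rw [hX] at h1 h2 ⊢
      exact hunr O hO c hc hcS h1 h2 u hu hu')
  exact key

/-! ### The two charts for `ℓ ≥ 5` -/

theorem not_dvd_1728 (h5 : 5 ≤ ℓ) : ¬ ℓ ∣ 1728 := by
  have hℓ : ℓ.Prime := Fact.out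
  intro h
  have h' : ℓ ∣ 2 ^ 6 * 3 ^ 3 := by norm_num; exact h
  rcases (Nat.Prime.dvd_mul hℓ).1 h' with h | h
  · have := Nat.le_of_dvd (by norm_num) (hℓ.dvd_of_dvd_pow h)
    omega
  · have := Nat.le_of_dvd (by norm_num) (hℓ.dvd_of_dvd_pow h)
    omega

/-- `1728` is a unit of `ℤ_(ℓ)` for `ℓ ≥ 5` -/
theorem isUnit_1728 (h5 : 5 ≤ ℓ) : IsUnit ((1728 : ℕ) : ↥(GaloisRep.ratLocalizedAt ℓ)) := by
  apply isUnit_of_resZl_ne_zero
  rw [map_natCast]
  intro h
  rw [ZMod.natCast_eq_zero_iff] at h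
  exact not_dvd_1728 h5 h

/-- the finite branch values of the finite chart -/
def sFin (ℓ : ℕ) : Finset ↥(GaloisRep.ratLocalizedAt ℓ) :=
  {0, ((1728 : ℕ) : ↥(GaloisRep.ratLocalizedAt ℓ))}

/-- the finite branch values of the chart at infinity -/
def sInf (ℓ : ℕ) [Fact ℓ.Prime] (h5 : 5 ≤ ℓ) : Finset ↥(GaloisRep.ratLocalizedAt ℓ) :=
  {0, (((isUnit_1728 h5).unit⁻¹ : (↥(GaloisRep.ratLocalizedAt ℓ))ˣ) :
    ↥(GaloisRep.ratLocalizedAt ℓ))}

theorem sDistinct_sFin (h5 : 5 ≤ ℓ) : SDistinct ℓ (sFin ℓ) := by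
  intro c hc c' hc' hne
  simp only [sFin, Finset.mem_insert, Finset.mem_singleton] at hc hc'
  rcases hc with rfl | rfl <;> rcases hc' with rfl | rfl
  · exact absurd rfl hne
  · rw [zero_sub]; exact (isUnit_1728 h5).neg
  · rw [sub_zero]; exact isUnit_1728 h5
  · exact absurd rfl hne

theorem sDistinct_sInf (h5 : 5 ≤ ℓ) : SDistinct ℓ (sInf ℓ h5) := by
  intro c hc c' hc' hne
  simp only [sInf, Finset.mem_insert, Finset.mem_singleton] at hc hc'
  rcases hc with rfl | rfl <;> rcases hc' with rfl | rfl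
  · exact absurd rfl hne
  · rw [zero_sub]; exact (Units.isUnit _).neg
  · rw [sub_zero]; exact Units.isUnit _
  · exact absurd rfl hne

/-- unramifiedness of `j` over `ℚ̄` away from `0, 1728` (from `S18.H997.branchFields`) -/
theorem unramified_jOm (h5 : 5 ≤ ℓ) (A : ValuationSubring Qb) (hA : A.LiesOverPrime ℓ) :
    ∀ O : ValuationSubring (Om N), (∀ a ∈ Lc N, a ∈ O) → ∀ c ∈ Lc N, c ≠ 0 → c ≠ 1728 →
      jOm N - c ∈ O → (jOm N - c)⁻¹ ∉ O → ∀ u ∈ O, u⁻¹ ∉ O → u * (jOm N - c)⁻¹ ∈ O := by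
  classical
  have hℓ : ℓ.Prime := Fact.out
  have hcoord : IsCoordinate N ℓ (jOm N) ({0, 1728} : Finset (Om N)) :=
    Or.inl ⟨h5, rfl, fun s => by simp⟩
  have h := (H997.branchFields N hℓ A hA (jOm N) _ hcoord ⊥).2.2.2
  intro O hO c hc hc0 hc1
  exact h O hO c hc (by simp [hc0, hc1])

/-- **HNC, finite chart**, `ℓ ≥ 5`. -/
theorem hnc_fin (hℓN : ¬ ℓ ∣ N) (h5 : 5 ≤ ℓ) (A : ValuationSubring Qb)
    (hA : A.LiesOverPrime ℓ) : HNC N ℓ (jFull N) (sFin ℓ) := by
  classical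
  haveI := finiteDimensional_baseField_jFull N ℓ
  refine hnc_of_unramified (sFin_subset N) (transcendental_jFull N ℓ) (hc_fin N ℓ hℓN)
    (sFin ℓ) ({0, 1728} : Finset (Om N)) ?_ ?_
  · intro c hc
    simp only [Finset.mem_insert, Finset.mem_singleton] at hc
    rcases hc with rfl | rfl
    · exact ⟨0, by simp [sFin], by simp⟩
    · refine ⟨((1728 : ℕ) : ↥(GaloisRep.ratLocalizedAt ℓ)), by simp [sFin], ?_⟩
      rw [Subring.coe_natCast, map_natCast, map_natCast]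
      norm_cast
  · intro O hO c hc hcS
    rw [embOm_jFull]
    simp only [Finset.mem_insert, Finset.mem_singleton, not_or] at hcS
    exact unramified_jOm h5 A hA O hO c hc hcS.1 hcS.2

/-- **HNC, chart at infinity**, `ℓ ≥ 5`. -/
theorem hnc_inf (hℓN : ¬ ℓ ∣ N) (h5 : 5 ≤ ℓ) (A : ValuationSubring Qb)
    (hA : A.LiesOverPrime ℓ) : HNC N ℓ (jFull N)⁻¹ (sInf ℓ h5) := by
  classical
  haveI := finiteDimensional_baseField_jFull_inv N ℓ
  refine hnc_of_unramified (sInf_subset N) (transcendental_jFull_inv N ℓ) (hc_inf N ℓ hℓN)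
    (sInf ℓ h5) ({0, (1728 : Om N)⁻¹} : Finset (Om N)) ?_ ?_
  · intro c hc
    simp only [Finset.mem_insert, Finset.mem_singleton] at hc
    rcases hc with rfl | rfl
    · exact ⟨0, by simp [sInf], by simp⟩
    · refine ⟨(((isUnit_1728 h5).unit⁻¹ : (↥(GaloisRep.ratLocalizedAt ℓ))ˣ) :
        ↥(GaloisRep.ratLocalizedAt ℓ)), by simp [sInf], ?_⟩
      have h1 : (((isUnit_1728 h5).unit⁻¹ : (↥(GaloisRep.ratLocalizedAt ℓ))ˣ) :
          ↥(GaloisRep.ratLocalizedAt ℓ)) * ((1728 : ℕ) : ↥(GaloisRep.ratLocalizedAt ℓ)) = 1 :=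
        (isUnit_1728 h5).val_inv_mul
      have h2 := congrArg (fun r : ↥(GaloisRep.ratLocalizedAt ℓ) =>
        algebraMap Qb (Om N) (algebraMap ℚ Qb (r : ℚ))) h1
      simp only [Subring.coe_mul, Subring.coe_natCast, Subring.coe_one, map_mul, map_natCast,
        map_one] at h2
      exact eq_inv_of_mul_eq_one_left (by exact_mod_cast h2)
  · intro O hO c hc hcS
    have hemb : embOm (jFull N)⁻¹ = (jOm N)⁻¹ := by rw [map_inv₀, embOm_jFull]
    rw [hemb]
    simp only [Finset.mem_insert, Finset.mem_singleton, not_or] at hcS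
    exact unramified_inv (Lc N) (jOm N) 1728 (unramified_jOm h5 A hA) O hO c hc hcS.1 hcS.2

end Fermat.Agent.S37.H879
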