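import Fermat.Agent.S37.H879.NormalBase
import Fermat.Agent.S37.H448.AscentMod
import Fermat.Agent.S18.H264.SepLaurent

/-!
# S37 / R-b (helper879): the modular input `HSep` (special fibre generically étale)

`HSep N ℓ t` for both charts `t = j`, `t = j⁻¹` of the `ℤ_(ℓ)`-model, every `ℓ ∤ N`:
the reduction `b̄ ∈ 𝔽_ℓ((q))` of an element of the chart is algebraic over `𝔽_ℓ(t̄)`, hence
separable, because `ord_q t̄ = ∓1` is prime to `ℓ` (helper264's `SepLaurent`).
-/

set_option autoImplicit false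
set_option linter.style.haveILetI false
set_option linter.unusedSectionVars false

noncomputable section

namespace Fermat.Agent.S37.H879

open HahnSeries ModularCurve ModularCurve.IgusaScheme Polynomial
open Fermat.Agent.S28 Fermat.Agent.S28.H865 Fermat.Agent.S18 Fermat.Agent.S18.B12.H33
open Fermat.Agent.S37.H448

variable {N : ℕ} [NeZero N] {ℓ : ℕ} [Fact ℓ.Prime]

theorem evalSer_eq_aeval {κ : Type*} [Field κ] (x : LaurentSeries κ) :
    evalSer κ x = (aeval x : Polynomial κ →ₐ[κ] LaurentSeries κ).toRingHom := by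
  refine Polynomial.ringHom_ext (fun a => ?_) ?_
  · rw [evalSer_C]
    simp only [AlgHom.toRingHom_eq_coe, RingHom.coe_coe, aeval_C]
    rw [algebraMap_laurent_eq_C (k₀ := κ) (k := κ)]
    rfl
  · rw [evalSer_X]
    simp

section Generic

variable {t : ↥(modularFunctionFieldFull N)}
  (hS : ({t} : Set ↥(modularFunctionFieldFull N)) ⊆ {jFull N, (jFull N)⁻¹})

/-- the reduction of a chart element is algebraic over `𝔽_ℓ(t̄)` -/
theorem isAlgebraic_redT (ht : Transcendental ↥(GaloisRep.ratLocalizedAt ℓ) t)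
    [FiniteDimensional (H138.baseField ↥(GaloisRep.ratLocalizedAt ℓ) t)
      ↥(modularFunctionFieldFull N)]
    (b : H138.chart ↥(GaloisRep.ratLocalizedAt ℓ) ({t} : Set ↥(modularFunctionFieldFull N))) :
    IsAlgebraic (IntermediateField.adjoin (ZMod ℓ)
      {redT hS (chartX ↥(GaloisRep.ratLocalizedAt ℓ) t)}) (redT hS b) := by
  set x := redT hS (chartX ↥(GaloisRep.ratLocalizedAt ℓ) t) with hx
  obtain ⟨p, hp, hpb⟩ := isIntegralElem_chartPolyHom ht b
  -- integrality over `𝔽_ℓ[X]` via `evalSer`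
  have h1 : (evalSer (ZMod ℓ) x).IsIntegralElem (redT hS b) := by
    refine ⟨p.map (Polynomial.mapRingHom (resZl ℓ)), hp.map _, ?_⟩
    rw [Polynomial.eval₂_map]
    have hcomp : (evalSer (ZMod ℓ) x).comp (Polynomial.mapRingHom (resZl ℓ)) =
        (redT hS).comp (chartPolyHom ↥(GaloisRep.ratLocalizedAt ℓ) t :
          Polynomial ↥(GaloisRep.ratLocalizedAt ℓ) →+*
            H138.chart ↥(GaloisRep.ratLocalizedAt ℓ)
              ({t} : Set ↥(modularFunctionFieldFull N))) :=
      RingHom.ext (fun g' => (redT_chartPolyHom hS g').symm)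
    rw [hcomp, ← Polynomial.hom_eval₂, hpb, map_zero]
  -- factor through the intermediate field
  let f₁ : Polynomial (ZMod ℓ) →+* ↥(IntermediateField.adjoin (ZMod ℓ) {x}) :=
    RingHom.codRestrict (aeval x : Polynomial (ZMod ℓ) →ₐ[ZMod ℓ] LaurentSeries (ZMod ℓ)).toRingHom
      (IntermediateField.adjoin (ZMod ℓ) {x}).toSubfield.toSubring (fun g => by
        have h := Polynomial.aeval_mem_adjoin_singleton (ZMod ℓ) (A := LaurentSeries (ZMod ℓ)) x
          (p := g)
        exact IntermediateField.algebra_adjoin_le_adjoin (ZMod ℓ) _ h)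
  have hfac : (algebraMap ↥(IntermediateField.adjoin (ZMod ℓ) {x})
      (LaurentSeries (ZMod ℓ))).comp f₁ = evalSer (ZMod ℓ) x := by
    rw [evalSer_eq_aeval]
    rfl
  rw [← hfac] at h1
  have h2 : IsIntegral ↥(IntermediateField.adjoin (ZMod ℓ) {x}) (redT hS b) :=
    RingHom.IsIntegralElem.of_comp h1
  exact h2.isAlgebraic

include hS in
/-- **HSep** for a chart whose coordinate has `q`-order prime to `ℓ` mod `ℓ`. -/
theorem hsep_of_order (ht : Transcendental ↥(GaloisRep.ratLocalizedAt ℓ) t) (hHC : HC N ℓ t)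
    [FiniteDimensional (H138.baseField ↥(GaloisRep.ratLocalizedAt ℓ) t)
      ↥(modularFunctionFieldFull N)]
    (hord : ¬ (ℓ : ℤ) ∣ (redT hS (chartX ↥(GaloisRep.ratLocalizedAt ℓ) t)).order) :
    HSep N ℓ t := by
  intro b
  set x := redT hS (chartX ↥(GaloisRep.ratLocalizedAt ℓ) t) with hx
  obtain ⟨Pb, h1, h2⟩ := H264.exists_bivariate_simple_root_laurent ℓ x (redT hS b) hord
    (isAlgebraic_redT hS ht b)
  rw [← evalSer_eq_aeval] at h1 h2
  have hsurj : Function.Surjective (Polynomial.mapRingHom (resZl ℓ)) := by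
    refine Polynomial.map_surjective _ ?_
    intro a
    refine ⟨((a.val : ℕ) : ↥(GaloisRep.ratLocalizedAt ℓ)), ?_⟩
    rw [map_natCast, ZMod.natCast_zmod_val]
  obtain ⟨P, hP⟩ := Polynomial.map_surjective _ hsurj Pb
  have hcomp : (redT hS).comp (chartPolyHom ↥(GaloisRep.ratLocalizedAt ℓ) t :
      Polynomial ↥(GaloisRep.ratLocalizedAt ℓ) →+*
        H138.chart ↥(GaloisRep.ratLocalizedAt ℓ) ({t} : Set ↥(modularFunctionFieldFull N))) =
      (evalSer (ZMod ℓ) x).comp (Polynomial.mapRingHom (resZl ℓ)) :=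
    RingHom.ext (fun g' => redT_chartPolyHom hS g')
  have key : ∀ Q : Polynomial (Polynomial ↥(GaloisRep.ratLocalizedAt ℓ)),
      redT hS (Q.eval₂ (chartPolyHom ↥(GaloisRep.ratLocalizedAt ℓ) t :
        Polynomial ↥(GaloisRep.ratLocalizedAt ℓ) →+*
          H138.chart ↥(GaloisRep.ratLocalizedAt ℓ) ({t} : Set ↥(modularFunctionFieldFull N))) b) =
      (Q.map (Polynomial.mapRingHom (resZl ℓ))).eval₂ (evalSer (ZMod ℓ) x) (redT hS b) := by
    intro Q
    rw [Polynomial.hom_eval₂, hcomp, Polynomial.eval₂_map]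
  refine ⟨P, ?_, ?_⟩
  · apply redT_ker hS ht hHC
    rw [key, hP]
    exact h1
  · rintro ⟨c, hc⟩
    apply h2
    rw [← hP, Polynomial.derivative_map, ← key, hc, map_mul, redT_natCast, zero_mul]

end Generic

variable (N ℓ)

/-- **HSep, finite chart** (`t = j`), every `ℓ ∤ N`. -/
theorem hsep_fin (hℓN : ¬ ℓ ∣ N) : HSep N ℓ (jFull N) := by
  haveI := finiteDimensional_baseField_jFull N ℓ
  refine hsep_of_order (sFin_subset N) (transcendental_jFull N ℓ) (hc_fin N ℓ hℓN) ?_
  rw [redT_chartX_fin, H145.order_jqModC]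
  exact H264.not_prime_dvd_neg_one ℓ Fact.out

/-- **HSep, chart at infinity** (`t = j⁻¹`), every `ℓ ∤ N`. -/
theorem hsep_inf (hℓN : ¬ ℓ ∣ N) : HSep N ℓ (jFull N)⁻¹ := by
  haveI := finiteDimensional_baseField_jFull_inv N ℓ
  refine hsep_of_order (sInf_subset N) (transcendental_jFull_inv N ℓ) (hc_inf N ℓ hℓN) ?_
  rw [redT_chartX_inf]
  have hj0 : jqModC (ZMod ℓ) ≠ 0 := H145.jqModC_ne_zero' (ZMod ℓ)
  have h1 : (jqModC (ZMod ℓ) * (jqModC (ZMod ℓ))⁻¹).order =
      (jqModC (ZMod ℓ)).order + ((jqModC (ZMod ℓ))⁻¹).order :=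
    HahnSeries.order_mul hj0 (inv_ne_zero hj0)
  rw [mul_inv_cancel₀ hj0, HahnSeries.order_one, H145.order_jqModC] at h1
  have h2 : ((jqModC (ZMod ℓ))⁻¹).order = 1 := by omega
  rw [h2]
  intro h
  have hℓ : ℓ.Prime := Fact.out
  have h3 : (ℓ : ℤ) ≤ 1 := Int.le_of_dvd one_pos h
  have h4 := hℓ.two_le
  omega

end Fermat.Agent.S37.H879
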