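import Fermat.Agent.S37.H879.NormalA
import Fermat.Agent.S37.H879.HSepProof
import Fermat.Agent.S37.H879.HNCProof
import Fermat.Agent.S37.Rim.Node

/-!
# S37 / node_rim for `ℓ ≥ 5` (helper879): UNCONDITIONAL

For every level `M`, every prime `ℓ ≥ 5` with `ℓ ∤ M` and every valuation subring `A` of `ℚ̄`
over `ℓ`:

* `liftFin_of_five_le`, `liftInf_of_five_le` : the leaves `Rim.Node.LiftFin A M`,
  `Rim.Node.LiftInf A M` (normality of the special fibre of the two `j`-charts, (H3));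
* `node_rim_of_five_le` : `ModularCurve.ReductionInputsModL A M` (node `node_rim` of the S37
  board), by helper39's final glue `Rim.Node.node_rim_of_lift`.

Route: `ℤ_(ℓ)`-model (`IgusaScheme.chartAlg`), `S18.B12.H858.b2Normal` (discriminant counting),
`HSep` from `S18.H264` (SepLaurent), `HNC` from `S18.H754.hNC_typed` + `S18.H997.branchFields`,
ascent `𝔽_ℓ → k` by `S37.H448`.
-/

set_option autoImplicit false
set_option linter.style.haveILetI false
set_option linter.unusedSectionVars false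

noncomputable section

namespace Fermat.Agent.S37.H879

open ModularCurve Fermat.Agent.S37 Fermat.Agent.S37.Core

variable (M : ℕ) [NeZero M] (ℓ : ℕ) (hℓ : ℓ.Prime) (hℓM : ¬ ℓ ∣ M) (h5 : 5 ≤ ℓ)
  (A : ValuationSubring (AlgebraicClosure ℚ)) (hA : A.LiesOverPrime ℓ)

include hℓ hℓM h5 hA

/-- **(H3), finite chart**, `ℓ ≥ 5`. -/
theorem liftFin_of_five_le : Rim.Node.LiftFin A M := by
  haveI : Fact ℓ.Prime := ⟨hℓ⟩
  intro z hz
  exact lift_fin M A hℓM hA (hsep_fin M ℓ hℓM) (sFin ℓ) (sDistinct_sFin h5)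
    (hnc_fin hℓM h5 A hA) z hz

/-- **(H3), chart at infinity**, `ℓ ≥ 5`. -/
theorem liftInf_of_five_le : Rim.Node.LiftInf A M := by
  haveI : Fact ℓ.Prime := ⟨hℓ⟩
  intro z hz
  exact lift_inf M A hℓM hA (hsep_inf M ℓ hℓM) (sInf ℓ h5) (sDistinct_sInf h5)
    (hnc_inf hℓM h5 A hA) z hz

/-- **NODE [RIM] for `ℓ ≥ 5`**, unconditional. -/
theorem node_rim_of_five_le : ReductionInputsModL A M :=
  Rim.Node.node_rim_of_lift M ℓ hℓ hℓM A hA
    (liftFin_of_five_le M ℓ hℓ hℓM h5 A hA) (liftInf_of_five_le M ℓ hℓ hℓM h5 A hA)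

end Fermat.Agent.S37.H879
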