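import Fermat.Agent.S37.H879.NormalBase
import Fermat.Agent.S37.H448.AscentMod
import Fermat.Agent.S37.H448.Gen

/-!
# S37 / R-b (helper879): NORMAL over `A` — (H3) `lift_fin` / `lift_inf`

`A ⊆ ℚ̄` a valuation subring over `ℓ ∤ N`, `k = A/𝔪`.  From the two modular inputs `HSep`, `HNC`
for the `ℤ_(ℓ)`-charts (`NormalBase.lean`):

* `lift_fin` : every `z ∈ F_k = k(X₀(N))` integral over `k[j̄]` is `c.sp` for an integral
  `q`-series `c : Core.IntElt A N` with `c.IsFin`;
* `lift_inf` : the same for `j̄⁻¹` and `c.IsInf`.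

Glue of `normalBase_fin/inf` (this directory) and helper448's ascent
(`S37.H448.lift_fin_of_base_liesOver`, `base_fin_of_ring`).
-/

set_option autoImplicit false
set_option linter.style.haveILetI false
set_option linter.unusedSectionVars false

noncomputable section

namespace Fermat.Agent.S37.H879

open HahnSeries ModularCurve ModularCurve.IgusaScheme Polynomial
open Fermat.Agent.S28 Fermat.Agent.S28.H865 Fermat.Agent.S37.H448 Fermat.Agent.S37.Core

variable {N : ℕ} [NeZero N] {ℓ : ℕ} [Fact ℓ.Prime]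
variable (A : ValuationSubring (AlgebraicClosure ℚ))

/-- `ℤ_(ℓ) ⊆ A` for a valuation subring `A` of `ℚ̄` over `ℓ`. -/
theorem algebraMap_mem_of_liesOver (hA : A.LiesOverPrime ℓ) (r : ↥(GaloisRep.ratLocalizedAt ℓ)) :
    algebraMap ℚ (AlgebraicClosure ℚ) (r : ℚ) ∈ A := by
  have hℓ : ℓ.Prime := Fact.out
  obtain ⟨r, hr⟩ := r
  have hcop : IsCoprime (r.den : ℤ) (ℓ : ℤ) := by
    rw [Int.isCoprime_iff_gcd_eq_one]
    exact_mod_cast hr
  obtain ⟨a, b, hab⟩ := hcop
  -- `den` is a unit of `A`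
  have hden : ((r.den : ℤ) : AlgebraicClosure ℚ)⁻¹ ∈ A := by
    by_contra hcon
    have h1 : A.valuation ((r.den : ℤ) : AlgebraicClosure ℚ) < 1 := by
      have hmem : ((r.den : ℤ) : AlgebraicClosure ℚ) ∈ A := intCast_mem A _
      have h3 : A.valuation ((r.den : ℤ) : AlgebraicClosure ℚ) ≤ 1 :=
        (A.valuation_le_one_iff _).2 hmem
      refine lt_of_le_of_ne h3 (fun h => hcon ?_)
      rw [← A.valuation_le_one_iff, map_inv₀, h, inv_one]
    have h2 : A.valuation ((ℓ : ℤ) : AlgebraicClosure ℚ) < 1 := by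
      have : ((ℓ : ℤ) : AlgebraicClosure ℚ) = ((ℓ : ℕ) : AlgebraicClosure ℚ) := by push_cast; rfl
      rw [this]
      exact (ValuationSubring.mem_nonunits_iff A).1 hA
    have ha : A.valuation ((a : ℤ) : AlgebraicClosure ℚ) ≤ 1 :=
      (A.valuation_le_one_iff _).2 (intCast_mem A _)
    have hb : A.valuation ((b : ℤ) : AlgebraicClosure ℚ) ≤ 1 :=
      (A.valuation_le_one_iff _).2 (intCast_mem A _)
    have h4 : A.valuation (((a * r.den + b * ℓ : ℤ)) : AlgebraicClosure ℚ) < 1 := by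
      push_cast
      refine lt_of_le_of_lt (A.valuation.map_add _ _) (max_lt ?_ ?_)
      · rw [map_mul]
        calc A.valuation (a : AlgebraicClosure ℚ) * A.valuation ((r.den : ℕ) : AlgebraicClosure ℚ)
            ≤ 1 * A.valuation ((r.den : ℕ) : AlgebraicClosure ℚ) :=
              mul_le_mul' (by simpa using ha) le_rfl
          _ < 1 := by rw [one_mul]; simpa using h1
      · rw [map_mul]
        calc A.valuation (b : AlgebraicClosure ℚ) * A.valuation ((ℓ : ℕ) : AlgebraicClosure ℚ)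
            ≤ 1 * A.valuation ((ℓ : ℕ) : AlgebraicClosure ℚ) :=
              mul_le_mul' (by simpa using hb) le_rfl
          _ < 1 := by rw [one_mul]; simpa using h2
    rw [hab] at h4
    simp at h4
  have hr' : algebraMap ℚ (AlgebraicClosure ℚ) r =
      (r.num : AlgebraicClosure ℚ) * ((r.den : ℤ) : AlgebraicClosure ℚ)⁻¹ := by
    conv_lhs => rw [← Rat.num_div_den r]
    rw [map_div₀, map_intCast, map_natCast, div_eq_mul_inv]
    simp
  show algebraMap ℚ (AlgebraicClosure ℚ) r ∈ A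
  rw [hr']
  exact A.mul_mem _ _ (intCast_mem A _) hden

/-- the inclusion `ℤ_(ℓ) → A` -/
def zlToA (hA : A.LiesOverPrime ℓ) : ↥(GaloisRep.ratLocalizedAt ℓ) →+* A where
  toFun r := ⟨algebraMap ℚ (AlgebraicClosure ℚ) (r : ℚ), algebraMap_mem_of_liesOver A hA r⟩
  map_one' := Subtype.ext (by simp)
  map_mul' x y := Subtype.ext (by simp)
  map_zero' := Subtype.ext (by simp)
  map_add' x y := Subtype.ext (by simp)

theorem subtype_comp_zlToA (hA : A.LiesOverPrime ℓ) :
    A.subtype.comp (zlToA A hA) =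
      (algebraMap ℚ (AlgebraicClosure ℚ)).comp (GaloisRep.ratLocalizedAt ℓ).subtype :=
  ratLocalizedAt_ringHom_ext _ _

theorem coeffMap_zlToA_mem (hA : A.LiesOverPrime ℓ)
    {y₀ : LaurentSeries ↥(GaloisRep.ratLocalizedAt ℓ)}
    (hy : toQ ℓ y₀ ∈ modularFunctionFieldFull N) :
    coeffMap (A.subtype.comp (zlToA A hA)) y₀ ∈ modularFunctionFieldBar N := by
  rw [subtype_comp_zlToA, ← coeffMap_coeffMap]
  exact coeffEmb_mem_laurentBaseChange (AlgebraicClosure ℚ) hy

variable (N) in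
/-- **(H3), finite chart**: normality of the special fibre over `A`. -/
theorem lift_fin (hℓN : ¬ ℓ ∣ N) (hA : A.LiesOverPrime ℓ) (hsep : HSep N ℓ (jFull N))
    (S : Finset ↥(GaloisRep.ratLocalizedAt ℓ)) (hSd : SDistinct ℓ S)
    (hNC : HNC N ℓ (jFull N) S)
    (z : modularFunctionFieldFullC (IsLocalRing.ResidueField A) N)
    (hint : (evalSer (IsLocalRing.ResidueField A)
      (jqModC (IsLocalRing.ResidueField A))).IsIntegralElem (z : LaurentSeries _)) :
    ∃ c : IntElt A N, c.IsFin ∧ c.sp = z := by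
  have hℓ : ℓ.Prime := Fact.out
  refine lift_fin_of_base_liesOver A hA (fun φ w hw hwi => ?_) z hint
  refine base_fin_of_ring A (zlToA A hA) (resZl ℓ) φ (ratLocalizedAt_ringHom_ext _ _)
    (fun y hy => reduction_mem_fullC N hℓ hℓN A hA y hy) (fun w hw hwi => ?_) w hw hwi
  obtain ⟨y₀, h1, h2, h3⟩ := normalBase_fin N ℓ hℓN hsep S hSd hNC w hw hwi
  exact ⟨y₀, coeffMap_zlToA_mem A hA h1, h2, h3⟩

variable (N) in
/-- **(H3), chart at infinity**: normality of the special fibre over `A`. -/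
theorem lift_inf (hℓN : ¬ ℓ ∣ N) (hA : A.LiesOverPrime ℓ) (hsep : HSep N ℓ (jFull N)⁻¹)
    (S : Finset ↥(GaloisRep.ratLocalizedAt ℓ)) (hSd : SDistinct ℓ S)
    (hNC : HNC N ℓ (jFull N)⁻¹ S)
    (z : modularFunctionFieldFullC (IsLocalRing.ResidueField A) N)
    (hint : (evalSer (IsLocalRing.ResidueField A)
      (jqModC (IsLocalRing.ResidueField A))⁻¹).IsIntegralElem (z : LaurentSeries _)) :
    ∃ c : IntElt A N, c.IsInf ∧ c.sp = z := by
  have hℓ : ℓ.Prime := Fact.out
  refine lift_inf_of_base_liesOver A hA (fun φ w hw hwi => ?_) z hint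
  obtain ⟨u₀, y₀, h0, h1, h2, h3⟩ := normalBase_inf N ℓ hℓN hsep S hSd hNC w hw hwi
  have hmem : coeffMap A.subtype (coeffMap (zlToA A hA) y₀) ∈ modularFunctionFieldBar N := by
    rw [coeffMap_coeffMap]
    exact coeffMap_zlToA_mem A hA h1
  refine ⟨⟨coeffMap (zlToA A hA) y₀, hmem, reduction_mem_fullC N hℓ hℓN A hA _ hmem⟩, ?_, ?_⟩
  · refine ⟨coeffMap (zlToA A hA) u₀, ?_, ?_⟩
    · have := congrArg (coeffMap (zlToA A hA)) h0
      rw [map_mul, map_one, coeffMap_jqModC] at this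
      exact this
    · exact isIntegralElem_coeffMap (zlToA A hA) h2
  · show coeffMap (IsLocalRing.residue A) (coeffMap (zlToA A hA) y₀) = coeffMap φ w
    have hcomp : (IsLocalRing.residue A).comp (zlToA A hA) = φ.comp (resZl ℓ) :=
      ratLocalizedAt_ringHom_ext _ _
    rw [coeffMap_coeffMap, hcomp, ← coeffMap_coeffMap]
    congr 1

end Fermat.Agent.S37.H879
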