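import Fermat.Agent.S37.H879.ChartNormal
import Fermat.Agent.S28.H508.CoreToBasis
import Fermat.Agent.S28.H25.Theta

/-!
# S37 / R-b (helper879): NORMAL-BASE over `ℤ_(ℓ)` in `q`-expansion language, both charts

For `ℓ ∤ N`, from the two modular inputs `HSep` (special fibre generically étale over the
`t`-line, elementwise) and `HNC` (unramified outside the branch set `S`), stated for the charts
`t = j` and `t = j⁻¹` of the `ℤ_(ℓ)`-model:

* `normalBase_fin` : every `w ∈ 𝔽_ℓ(X₀(N))` integral over `𝔽_ℓ[j̄]` is the reduction of a series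
  `y₀ ∈ ℤ_(ℓ)((q))` lying in `ℚ(X₀(N))` and integral over `ℤ_(ℓ)[j]`;
* `normalBase_inf` : the same with `j⁻¹`.

These are exactly the inputs `h0` of `S37.H448.base_fin_of_ring` (`R₀ = ℤ_(ℓ)`).
-/

set_option autoImplicit false
set_option linter.style.haveILetI false
set_option linter.unusedSectionVars false

noncomputable section

namespace Fermat.Agent.S37.H879

open HahnSeries ModularCurve ModularCurve.IgusaScheme Polynomial
open Fermat.Agent.S28 Fermat.Agent.S28.H865 Fermat.Agent.S18 Fermat.Agent.S18.B12.H33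
open Fermat.Agent.S37.H448

variable (N : ℕ) [NeZero N] (ℓ : ℕ) [Fact ℓ.Prime]

/-- **Modular input 1** (`hsep` of `S18.B12.H33.regularAlong_chart` for the chart `{t}` of the
`ℤ_(ℓ)`-model): every element of the chart is, mod `ℓ`, a simple root of a polynomial over
`ℤ_(ℓ)[t]`. -/
def HSep (t : ↥(modularFunctionFieldFull N)) : Prop :=
  ∀ b : H138.chart ↥(GaloisRep.ratLocalizedAt ℓ) ({t} : Set ↥(modularFunctionFieldFull N)),
    ∃ P : Polynomial (Polynomial ↥(GaloisRep.ratLocalizedAt ℓ)),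
      algebraMap ↥(GaloisRep.ratLocalizedAt ℓ) (H138.chart ↥(GaloisRep.ratLocalizedAt ℓ)
        ({t} : Set ↥(modularFunctionFieldFull N))) ((ℓ : ℕ) : ↥(GaloisRep.ratLocalizedAt ℓ)) ∣
        P.eval₂ (chartPolyHom ↥(GaloisRep.ratLocalizedAt ℓ) t :
          Polynomial ↥(GaloisRep.ratLocalizedAt ℓ) →+* _) b ∧
      ¬ algebraMap ↥(GaloisRep.ratLocalizedAt ℓ) (H138.chart ↥(GaloisRep.ratLocalizedAt ℓ)
        ({t} : Set ↥(modularFunctionFieldFull N))) ((ℓ : ℕ) : ↥(GaloisRep.ratLocalizedAt ℓ)) ∣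
        (derivative P).eval₂ (chartPolyHom ↥(GaloisRep.ratLocalizedAt ℓ) t :
          Polynomial ↥(GaloisRep.ratLocalizedAt ℓ) →+* _) b

/-- **Modular input 2** (`hNC` of `S18.B12.H33.regularAlong_chart` for the chart `{t}`): for
every prime `π` of `ℤ_(ℓ)[X]` other than `ℓ` and `X - c`, `c ∈ S`, the ideal `π(t) B` is
radical. -/
def HNC (t : ↥(modularFunctionFieldFull N)) (S : Finset ↥(GaloisRep.ratLocalizedAt ℓ)) : Prop :=
  ∀ π : Polynomial ↥(GaloisRep.ratLocalizedAt ℓ), Prime π →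
    ¬ Associated π (Polynomial.C ((ℓ : ℕ) : ↥(GaloisRep.ratLocalizedAt ℓ))) →
    (∀ c ∈ S, ¬ Associated π (Polynomial.X - Polynomial.C c)) →
    (Ideal.span {chartPolyHom ↥(GaloisRep.ratLocalizedAt ℓ) t π}).IsRadical

/-- the branch values are pairwise distinct mod `ℓ` -/
def SDistinct (S : Finset ↥(GaloisRep.ratLocalizedAt ℓ)) : Prop :=
  ∀ c ∈ S, ∀ c' ∈ S, c ≠ c' → IsUnit (c - c')

/-- `BasisData N ℓ` of S28, unconditionally for `ℓ ∤ N`. -/
theorem basisData_of_not_dvd (hℓN : ¬ ℓ ∣ N) : BasisData N ℓ :=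
  H508.basisData_of_coreData N ℓ
    (H867.coreData_of_inputs N ℓ hℓN (ZMod ℓ)
      (fun p hp _ _ => H807.nonempty_modPolyData p hp)
      (fun p hp _ _ => H807.nonempty_unitPolyData p hp) H25.theta_identity)

theorem hc_fin (hℓN : ¬ ℓ ∣ N) : HC N ℓ (jFull N) :=
  exists_mul_mem_chartAlgFin N ℓ (basisData_of_not_dvd N ℓ hℓN)

theorem hc_inf (hℓN : ¬ ℓ ∣ N) : HC N ℓ (jFull N)⁻¹ :=
  exists_mul_mem_chartAlgInf N ℓ (basisData_of_not_dvd N ℓ hℓN)

theorem redT_chartX_fin :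
    redT (sFin_subset N) (chartX ↥(GaloisRep.ratLocalizedAt ℓ) (jFull N)) =
      jqModC (ZMod ℓ) := by
  rw [redT_apply]
  exact igRed_jq ℓ

theorem redT_chartX_inf :
    redT (sInf_subset N) (chartX ↥(GaloisRep.ratLocalizedAt ℓ) (jFull N)⁻¹) =
      (jqModC (ZMod ℓ))⁻¹ := by
  rw [redT_apply]
  exact igRed_jq_inv ℓ

theorem qT_chartX_fin :
    qT (sFin_subset N) (chartX ↥(GaloisRep.ratLocalizedAt ℓ) (jFull N)) =
      jqModC ↥(GaloisRep.ratLocalizedAt ℓ) :=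
  chartQ_jChartFin

theorem qT_chartX_inf_mul :
    qT (sInf_subset N) (chartX ↥(GaloisRep.ratLocalizedAt ℓ) (jFull N)⁻¹) *
      jqModC ↥(GaloisRep.ratLocalizedAt ℓ) = 1 :=
  chartQ_jInvChartInf_mul

/-- the `q`-expansion of a chart element is integral over `ℤ_(ℓ)[t(q)]` -/
theorem isIntegralElem_qT {t : ↥(modularFunctionFieldFull N)}
    (hS : ({t} : Set ↥(modularFunctionFieldFull N)) ⊆ {jFull N, (jFull N)⁻¹})
    (ht : Transcendental ↥(GaloisRep.ratLocalizedAt ℓ) t)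
    [FiniteDimensional (H138.baseField ↥(GaloisRep.ratLocalizedAt ℓ) t)
      ↥(modularFunctionFieldFull N)]
    (b : H138.chart ↥(GaloisRep.ratLocalizedAt ℓ) ({t} : Set ↥(modularFunctionFieldFull N))) :
    (evalSer ↥(GaloisRep.ratLocalizedAt ℓ)
      (qT hS (chartX ↥(GaloisRep.ratLocalizedAt ℓ) t))).IsIntegralElem (qT hS b) := by
  obtain ⟨p, hp, hpb⟩ := isIntegralElem_chartPolyHom ht b
  refine ⟨p, hp, ?_⟩
  have h1 := Polynomial.hom_eval₂ p
    (chartPolyHom ↥(GaloisRep.ratLocalizedAt ℓ) t :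
      Polynomial ↥(GaloisRep.ratLocalizedAt ℓ) →+*
        H138.chart ↥(GaloisRep.ratLocalizedAt ℓ) ({t} : Set ↥(modularFunctionFieldFull N)))
    (qT hS) b
  rw [hpb, map_zero] at h1
  have hcomp : (qT hS).comp (chartPolyHom ↥(GaloisRep.ratLocalizedAt ℓ) t :
      Polynomial ↥(GaloisRep.ratLocalizedAt ℓ) →+*
        H138.chart ↥(GaloisRep.ratLocalizedAt ℓ) ({t} : Set ↥(modularFunctionFieldFull N))) =
      evalSer ↥(GaloisRep.ratLocalizedAt ℓ) (qT hS (chartX ↥(GaloisRep.ratLocalizedAt ℓ) t)) :=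
    RingHom.ext (fun g => qT_chartPolyHom hS g)
  rw [hcomp] at h1
  exact h1.symm

/-- **NORMAL-BASE, finite chart.** -/
theorem normalBase_fin (hℓN : ¬ ℓ ∣ N) (hsep : HSep N ℓ (jFull N))
    (S : Finset ↥(GaloisRep.ratLocalizedAt ℓ)) (hSd : SDistinct ℓ S)
    (hNC : HNC N ℓ (jFull N) S)
    (w : LaurentSeries (ZMod ℓ)) (hw : w ∈ modularFunctionFieldFullC (ZMod ℓ) N)
    (hwi : (evalSer (ZMod ℓ) (jqModC (ZMod ℓ))).IsIntegralElem w) :
    ∃ y₀ : LaurentSeries ↥(GaloisRep.ratLocalizedAt ℓ),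
      toQ ℓ y₀ ∈ modularFunctionFieldFull N ∧
      (evalSer ↥(GaloisRep.ratLocalizedAt ℓ)
        (jqModC ↥(GaloisRep.ratLocalizedAt ℓ))).IsIntegralElem y₀ ∧
      toRes ℓ y₀ = w := by
  haveI := finiteDimensional_baseField_jFull N ℓ
  have ht := transcendental_jFull N ℓ
  rw [← redT_chartX_fin N ℓ] at hwi
  obtain ⟨b₀, hb₀⟩ := exists_redT_eq_of_isIntegral (sFin_subset N) ht (hc_fin N ℓ hℓN)
    hsep S hSd hNC hw hwi
  refine ⟨qT (sFin_subset N) b₀, ?_, ?_, ?_⟩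
  · rw [toQ_qT]
    exact (b₀ : ↥(modularFunctionFieldFull N)).2
  · have := isIntegralElem_qT N ℓ (sFin_subset N) ht b₀
    rwa [qT_chartX_fin] at this
  · rw [toRes_qT, hb₀]

/-- **NORMAL-BASE, chart at infinity.** -/
theorem normalBase_inf (hℓN : ¬ ℓ ∣ N) (hsep : HSep N ℓ (jFull N)⁻¹)
    (S : Finset ↥(GaloisRep.ratLocalizedAt ℓ)) (hSd : SDistinct ℓ S)
    (hNC : HNC N ℓ (jFull N)⁻¹ S)
    (w : LaurentSeries (ZMod ℓ)) (hw : w ∈ modularFunctionFieldFullC (ZMod ℓ) N)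
    (hwi : (evalSer (ZMod ℓ) (jqModC (ZMod ℓ))⁻¹).IsIntegralElem w) :
    ∃ u₀ y₀ : LaurentSeries ↥(GaloisRep.ratLocalizedAt ℓ),
      u₀ * jqModC ↥(GaloisRep.ratLocalizedAt ℓ) = 1 ∧
      toQ ℓ y₀ ∈ modularFunctionFieldFull N ∧
      (evalSer ↥(GaloisRep.ratLocalizedAt ℓ) u₀).IsIntegralElem y₀ ∧
      toRes ℓ y₀ = w := by
  haveI := finiteDimensional_baseField_jFull_inv N ℓ
  have ht := transcendental_jFull_inv N ℓ
  rw [← redT_chartX_inf N ℓ] at hwi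
  obtain ⟨b₀, hb₀⟩ := exists_redT_eq_of_isIntegral (sInf_subset N) ht (hc_inf N ℓ hℓN)
    hsep S hSd hNC hw hwi
  refine ⟨qT (sInf_subset N) (chartX ↥(GaloisRep.ratLocalizedAt ℓ) (jFull N)⁻¹),
    qT (sInf_subset N) b₀, qT_chartX_inf_mul N ℓ, ?_, ?_, ?_⟩
  · rw [toQ_qT]
    exact (b₀ : ↥(modularFunctionFieldFull N)).2
  · exact isIntegralElem_qT N ℓ (sInf_subset N) ht b₀
  · rw [toRes_qT, hb₀]

end Fermat.Agent.S37.H879
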