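import Mathlib
import Fermat.Agent.S18.B12.H858.B2Normal
import Fermat.Agent.S18.B12.H33.RegChart

/-!
# S37 / R-b (helper879): NORMAL-CHART — `b2Normal` on the charts of helper138

Setting of `S18.B12.H33.regularAlong_chart`: `R` a discrete valuation ring, `F` a field of
characteristic `0` which is an `R`-algebra, `x : F` transcendental over `R`,
`[FiniteDimensional (H138.baseField R x) F]`, `B := H138.chart R {x}` (integral closure of `R[x]`).

* `normal_chart` : the conclusion of `S18.B12.H858.B2NormalStatement` for `B`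
  (full normality of the special fibre `B/wB`), from `hdom`, `hsep`, `S`, `hNC` in exactly the
  shape of `regularAlong_chart`.
* `normal_chart_red` : reduction form.  `ρ : B →+* L` a ring hom to a domain with kernel `wB`;
  every `ε ∈ L` with `ρ(g(x)) ε = ρ(b)`, `ρ(g(x)) ≠ 0`, which is integral over `ρ(B)`,
  lies in `ρ(B)`.
-/

set_option autoImplicit false
set_option linter.style.haveILetI false

noncomputable section

namespace Fermat.Agent.S37.H879

open Polynomial Fermat.Agent.S18 Fermat.Agent.S18.B12 Fermat.Agent.S18.B12.H33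

universe u v

section NormalChart

variable {R : Type u} [CommRing R] [IsDomain R] [IsDiscreteValuationRing R]
  {F : Type v} [Field F] [CharZero F] [Algebra R F]

/-- **NORMAL-CHART.**  `b2Normal` on the chart `H138.chart R {x}`. -/
theorem normal_chart
    {x : F} (hx : Transcendental R x) [FiniteDimensional (H138.baseField R x) F]
    (w : R) (hw : Irreducible w)
    (hdom : Prime (algebraMap R (H138.chart R ({x} : Set F)) w))
    (hsep : ∀ b : H138.chart R ({x} : Set F), ∃ P : R[X][X],
        algebraMap R (H138.chart R ({x} : Set F)) w ∣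
          P.eval₂ (chartPolyHom R x : R[X] →+* H138.chart R ({x} : Set F)) b ∧
        ¬ algebraMap R (H138.chart R ({x} : Set F)) w ∣
          (derivative P).eval₂ (chartPolyHom R x : R[X] →+* H138.chart R ({x} : Set F)) b)
    (S : Finset R) (hS : ∀ c ∈ S, ∀ c' ∈ S, c ≠ c' → IsUnit (c - c'))
    (hNC : ∀ π : R[X], Prime π → ¬ Associated π (C w) → (∀ c ∈ S, ¬ Associated π (X - C c)) →
        (Ideal.span {chartPolyHom R x π}).IsRadical)
    (b : H138.chart R ({x} : Set F)) (g : R[X]) (hg : ¬ C w ∣ g)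
    (d : ℕ) (a : Fin d → H138.chart R ({x} : Set F))
    (h : b ^ d + ∑ i : Fin d, a i * b ^ (i : ℕ) * chartPolyHom R x g ^ (d - (i : ℕ)) ∈
        Ideal.span {algebraMap R (H138.chart R ({x} : Set F)) w}) :
    ∃ b₀ : H138.chart R ({x} : Set F),
      b - chartPolyHom R x g * b₀ ∈
        Ideal.span {algebraMap R (H138.chart R ({x} : Set F)) w} := by
  classical
  haveI : CharZero R := (algebraMap R F).charZero
  obtain ⟨hic, hfin⟩ := chart_package (R := R) hx
  letI := chartAlgebra R x
  haveI := hic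
  haveI := hfin
  haveI : Module.IsTorsionFree R[X] (H138.chart R ({x} : Set F)) :=
    Module.isTorsionFree_iff_algebraMap_injective.2 (chartPolyHom_injective hx)
  have hCw : algebraMap R[X] (H138.chart R ({x} : Set F)) (C w)
      = algebraMap R (H138.chart R ({x} : Set F)) w := chartPolyHom_C x w
  have hdom' : Prime (algebraMap R[X] (H138.chart R ({x} : Set F)) (C w)) := by
    rw [hCw]; exact hdom
  have hsep' := H425.hsep_poly R w hw (H138.chart R ({x} : Set F)) hdom' (by
    intro b
    obtain ⟨P, h1, h2⟩ := hsep b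
    refine ⟨P, ?_, ?_⟩
    · rw [hCw]; exact h1
    · rw [hCw]; exact h2)
  have key := H858.b2Normal.{u, v} R w hw (H138.chart R ({x} : Set F)) hsep' S hS hNC b g hg
    ⟨d, a, by rw [hCw]; exact h⟩
  obtain ⟨b₀, hb₀⟩ := key
  exact ⟨b₀, by rw [hCw] at hb₀; exact hb₀⟩

/-- **NORMAL-CHART, reduction form.**  `ρ : B → L` a ring homomorphism into a domain whose kernel
is `wB`.  If `ρ(g(x)) · ε = ρ(b)` with `ρ(g(x)) ≠ 0` and `ε` is integral over `ρ(B)`, then
`ε ∈ ρ(B)`. -/
theorem normal_chart_red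
    {x : F} (hx : Transcendental R x) [FiniteDimensional (H138.baseField R x) F]
    (w : R) (hw : Irreducible w)
    (hdom : Prime (algebraMap R (H138.chart R ({x} : Set F)) w))
    (hsep : ∀ b : H138.chart R ({x} : Set F), ∃ P : R[X][X],
        algebraMap R (H138.chart R ({x} : Set F)) w ∣
          P.eval₂ (chartPolyHom R x : R[X] →+* H138.chart R ({x} : Set F)) b ∧
        ¬ algebraMap R (H138.chart R ({x} : Set F)) w ∣
          (derivative P).eval₂ (chartPolyHom R x : R[X] →+* H138.chart R ({x} : Set F)) b)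
    (S : Finset R) (hS : ∀ c ∈ S, ∀ c' ∈ S, c ≠ c' → IsUnit (c - c'))
    (hNC : ∀ π : R[X], Prime π → ¬ Associated π (C w) → (∀ c ∈ S, ¬ Associated π (X - C c)) →
        (Ideal.span {chartPolyHom R x π}).IsRadical)
    {L : Type*} [CommRing L] [IsDomain L] (ρ : H138.chart R ({x} : Set F) →+* L)
    (hρw : ρ (algebraMap R (H138.chart R ({x} : Set F)) w) = 0)
    (hker : ∀ z : H138.chart R ({x} : Set F), ρ z = 0 →
      algebraMap R (H138.chart R ({x} : Set F)) w ∣ z)
    (ε : L) (b : H138.chart R ({x} : Set F)) (g : R[X])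
    (hg : ρ (chartPolyHom R x g) ≠ 0) (hε : ρ (chartPolyHom R x g) * ε = ρ b)
    (hint : ρ.IsIntegralElem ε) :
    ∃ b₀ : H138.chart R ({x} : Set F), ρ b₀ = ε := by
  classical
  obtain ⟨p, hp, hpε⟩ := hint
  -- `¬ C w ∣ g`
  have hg' : ¬ C w ∣ g := by
    rintro ⟨g', rfl⟩
    apply hg
    rw [map_mul, chartPolyHom_C, map_mul, hρw, zero_mul]
  set d := p.natDegree with hd
  set G := chartPolyHom R x g with hG
  -- the integral equation, scaled by `ρ(g)^d`
  have hsum : ρ (b ^ d + ∑ i : Fin d, p.coeff (i : ℕ) * b ^ (i : ℕ) * G ^ (d - (i : ℕ))) = 0 := by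
    have h1 : p.eval₂ ρ ε = ε ^ d + ∑ i ∈ Finset.range d, ρ (p.coeff i) * ε ^ i := by
      conv_lhs => rw [hp.as_sum]
      rw [eval₂_add, eval₂_pow, eval₂_X, eval₂_finsetSum]
      congr 1
      refine Finset.sum_congr rfl (fun i _ => ?_)
      rw [eval₂_mul, eval₂_C, eval₂_pow, eval₂_X]
    rw [h1] at hpε
    rw [map_add, map_pow, map_sum, ← hε]
    have h2 : ∀ i : Fin d, ρ (p.coeff (i : ℕ) * b ^ (i : ℕ) * G ^ (d - (i : ℕ))) =
        ρ G ^ d * (ρ (p.coeff (i : ℕ)) * ε ^ (i : ℕ)) := by
      intro i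
      have hi : (i : ℕ) ≤ d := i.2.le
      rw [map_mul, map_mul, map_pow, map_pow, ← hε, mul_pow]
      have : ρ G ^ d = ρ G ^ (i : ℕ) * ρ G ^ (d - (i : ℕ)) := by
        rw [← pow_add, Nat.add_sub_cancel' hi]
      rw [this]
      ring
    rw [Finset.sum_congr rfl (fun i _ => h2 i), ← Finset.mul_sum, mul_pow, ← mul_add,
      Fin.sum_univ_eq_sum_range (fun i => ρ (p.coeff i) * ε ^ i) d, hpε, mul_zero]
  have hmem : b ^ d + ∑ i : Fin d, p.coeff (i : ℕ) * b ^ (i : ℕ) * G ^ (d - (i : ℕ)) ∈
      Ideal.span {algebraMap R (H138.chart R ({x} : Set F)) w} :=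
    Ideal.mem_span_singleton.2 (hker _ hsum)
  obtain ⟨b₀, hb₀⟩ := normal_chart hx w hw hdom hsep S hS hNC b g hg' d
    (fun i => p.coeff (i : ℕ)) hmem
  refine ⟨b₀, ?_⟩
  obtain ⟨c, hc⟩ := Ideal.mem_span_singleton.1 hb₀
  have h3 : ρ b = ρ G * ρ b₀ := by
    have : b = G * b₀ + algebraMap R (H138.chart R ({x} : Set F)) w * c := by
      rw [← hc]; ring
    rw [this, map_add, map_mul, map_mul, hρw, zero_mul, add_zero]
  rw [← hε] at h3
  exact (mul_left_cancel₀ hg h3).symm

end NormalChart

end Fermat.Agent.S37.H879
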